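import Mathlib

/-!
Dirichlet series over the integral ideals of a number field: summability.
-/

set_option autoImplicit false

namespace Fermat.Agent.S14

open NumberField Ideal Filter Topology nonZeroDivisors

variable (K : Type*) [Field K] [NumberField K]

/-- The coefficients of the Dedekind zeta function have partial sums `O(n)`. -/
theorem dn_card_norm_isBigO :
    (fun n : ℕ ↦ ∑ k ∈ Finset.Icc 1 n,
      (Nat.card {I : Ideal (𝓞 K) // absNorm I = k} : ℝ)) =O[atTop] fun n ↦ (n : ℝ) ^ (1 : ℝ) := by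
  have h := (Ideal.tendsto_norm_le_div_atTop₀ K).comp tendsto_natCast_atTop_atTop
  have h2 : (fun n : ℕ ↦
      (Nat.card {I : (Ideal (𝓞 K))⁰ // absNorm (I : Ideal (𝓞 K)) ≤ (n : ℝ)} : ℝ)) =O[atTop]
      fun n ↦ (n : ℝ) := by
    have := h.isBigO_one ℝ
    have h3 : (fun n : ℕ ↦ (n : ℝ)) =O[atTop] fun n : ℕ ↦ (n : ℝ) := Asymptotics.isBigO_refl _ _
    have h4 := this.mul h3
    refine (h4.congr' ?_ ?_)
    · filter_upwards [eventually_gt_atTop 0] with n hn
      simp only [Function.comp_apply]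
      have : (n : ℝ) ≠ 0 := by positivity
      field_simp
    · filter_upwards with n
      simp
  refine (h2.congr' ?_ ?_)
  · filter_upwards with n
    simp only [Nat.cast_le, ← Nat.cast_sum]
    congr 1
    rw [← add_left_inj 1, ← card_norm_le_eq_card_norm_le_add_one,
      show Finset.Icc 1 n = Finset.Ioc 0 n from Finset.Icc_succ_left_eq_Ioc _ _,
      show 1 = Nat.card {I : Ideal (𝓞 K) // absNorm I = 0} by simp [Ideal.absNorm_eq_zero_iff],
      Finset.sum_Ioc_add_eq_sum_Icc (n.zero_le),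
      ← Finset.card_preimage_eq_sum_card_image_eq (fun k _ ↦ finite_setOfPred_absNorm_eq k)]
    simp [Set.coe_eq_subtype]
  · filter_upwards with n
    simp

/-- Summability of the Dedekind zeta series, indexed by the norm. -/
theorem dn_summable_card_mul_rpow {s : ℝ} (hs : 1 < s) :
    Summable fun n : ℕ ↦ (Nat.card {I : Ideal (𝓞 K) // absNorm I = n} : ℝ) * (n : ℝ) ^ (-s) := by
  have h1 : LSeriesSummable
      (fun n ↦ ((Nat.card {I : Ideal (𝓞 K) // absNorm I = n} : ℝ) : ℂ)) (s : ℂ) :=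
    LSeriesSummable_of_sum_norm_bigO_and_nonneg (dn_card_norm_isBigO K)
      (fun _ ↦ Nat.cast_nonneg _) zero_le_one (by simpa using hs)
  have h2 := h1.norm
  refine h2.congr fun n ↦ ?_
  rcases Nat.eq_zero_or_pos n with rfl | hn
  · have : -s ≠ 0 := by linarith
    simp [Real.zero_rpow this]
  · rw [LSeries.term_of_ne_zero hn.ne', norm_div, Complex.norm_real, Real.norm_of_nonneg
      (Nat.cast_nonneg _), Complex.norm_natCast_cpow_of_pos hn, Complex.ofReal_re,
      Real.rpow_neg (Nat.cast_nonneg _), div_eq_mul_inv]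

/-- Summability of `N(I)^(-s)` over all ideals, for `s > 1`. -/
theorem dn_summable_norm_rpow {s : ℝ} (hs : 1 < s) :
    Summable fun I : Ideal (𝓞 K) ↦ (absNorm I : ℝ) ^ (-s) := by
  rw [← (Equiv.sigmaFiberEquiv (absNorm : Ideal (𝓞 K) → ℕ)).summable_iff]
  have hfin : ∀ n : ℕ, Finite {I : Ideal (𝓞 K) // absNorm I = n} := fun n ↦
    (finite_setOfPred_absNorm_eq n).to_subtype
  rw [summable_sigma_of_nonneg (fun _ ↦ by simp only [Function.comp_apply]; positivity)]
  refine ⟨fun n ↦ ?_, ?_⟩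
  · have := hfin n
    exact Summable.of_finite
  · refine (dn_summable_card_mul_rpow K hs).congr fun n ↦ ?_
    have := hfin n
    have h3 : ∀ I : {I : Ideal (𝓞 K) // absNorm I = n},
        ((fun I : Ideal (𝓞 K) ↦ (absNorm I : ℝ) ^ (-s)) ∘
          (Equiv.sigmaFiberEquiv (absNorm : Ideal (𝓞 K) → ℕ))) ⟨n, I⟩ = (n : ℝ) ^ (-s) := by
      intro I
      simp [Equiv.sigmaFiberEquiv, I.2]
    simp_rw [h3]
    rw [tsum_const, nsmul_eq_mul]

end Fermat.Agent.S14
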