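import Mathlib
import Fermat.Agent.S14.Density.IdealSeries

/-!
Euler's sieve for Dirichlet series over the ideals of the ring of integers of a number field.
-/

set_option autoImplicit false

namespace Fermat.Agent.S14

open NumberField Ideal Filter Topology IsDedekindDomain

variable (K : Type*) [Field K] [NumberField K]

/-- The general term `χ(I) N(I)^(-s)`. -/
noncomputable def dn_term (χ : Ideal (𝓞 K) →* ℂ) (s : ℝ) (I : Ideal (𝓞 K)) : ℂ :=
  χ I * (((absNorm I : ℝ) ^ (-s) : ℝ) : ℂ)

/-- The Dirichlet series `∑ χ(I) N(I)^(-s)` over all ideals (the zero ideal contributes `0`). -/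
noncomputable def dn_L (χ : Ideal (𝓞 K) →* ℂ) (s : ℝ) : ℂ := ∑' I : Ideal (𝓞 K), dn_term K χ s I

variable {K}

lemma dn_term_mul (χ : Ideal (𝓞 K) →* ℂ) (s : ℝ) (I J : Ideal (𝓞 K)) :
    dn_term K χ s (I * J) = dn_term K χ s I * dn_term K χ s J := by
  unfold dn_term
  rw [map_mul, map_mul, Nat.cast_mul, Real.mul_rpow (Nat.cast_nonneg _) (Nat.cast_nonneg _)]
  push_cast
  ring

lemma dn_term_one (χ : Ideal (𝓞 K) →* ℂ) (s : ℝ) : dn_term K χ s 1 = 1 := by
  unfold dn_term
  rw [map_one, Ideal.one_eq_top, Ideal.absNorm_top]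
  simp

lemma dn_norm_term_le (χ : Ideal (𝓞 K) →* ℂ) (hχ : ∀ I, ‖χ I‖ ≤ 1) (s : ℝ) (I : Ideal (𝓞 K)) :
    ‖dn_term K χ s I‖ ≤ (absNorm I : ℝ) ^ (-s) := by
  unfold dn_term
  rw [norm_mul, Complex.norm_real, Real.norm_of_nonneg (by positivity)]
  calc ‖χ I‖ * (absNorm I : ℝ) ^ (-s) ≤ 1 * (absNorm I : ℝ) ^ (-s) :=
        mul_le_mul_of_nonneg_right (hχ I) (by positivity)
    _ = _ := one_mul _

lemma dn_summable_term (χ : Ideal (𝓞 K) →* ℂ) (hχ : ∀ I, ‖χ I‖ ≤ 1) {s : ℝ} (hs : 1 < s) :
    Summable (dn_term K χ s) :=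
  Summable.of_norm_bounded (dn_summable_norm_rpow K hs) (dn_norm_term_le χ hχ s)

/-- The ideals prime to a finite set of primes. -/
def dn_coprimeTo (S : Finset (HeightOneSpectrum (𝓞 K))) : Set (Ideal (𝓞 K)) :=
  {I | ∀ v ∈ S, ¬ v.asIdeal ∣ I}

lemma dn_mul_mem_coprimeTo_iff (S : Finset (HeightOneSpectrum (𝓞 K)))
    (v : HeightOneSpectrum (𝓞 K)) (hv : v ∉ S) (J : Ideal (𝓞 K)) :
    v.asIdeal * J ∈ dn_coprimeTo S ↔ J ∈ dn_coprimeTo S := by
  unfold dn_coprimeTo
  simp only [Set.mem_ofPred_eq]
  refine forall₂_congr fun w hw ↦ not_congr ?_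
  have hwv : w ≠ v := fun h ↦ hv (h ▸ hw)
  have hprime : Prime w.asIdeal := w.prime
  constructor
  · intro h
    rcases hprime.dvd_or_dvd h with h1 | h1
    · exfalso
      apply hwv
      have h2 : v.asIdeal ≤ w.asIdeal := Ideal.le_of_dvd h1
      have h3 : v.asIdeal = w.asIdeal :=
        (v.isMaximal.eq_of_le w.isPrime.ne_top h2)
      exact (HeightOneSpectrum.ext h3).symm
    · exact h1
  · intro h
    exact Dvd.dvd.mul_left h _

/-- Euler's sieve: removing the multiples of finitely many primes. -/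
theorem dn_tsum_coprimeTo (χ : Ideal (𝓞 K) →* ℂ) (hχ : ∀ I, ‖χ I‖ ≤ 1) {s : ℝ} (hs : 1 < s)
    (S : Finset (HeightOneSpectrum (𝓞 K))) :
    ∑' I : Ideal (𝓞 K), (dn_coprimeTo S).indicator (dn_term K χ s) I =
      dn_L K χ s * ∏ v ∈ S, (1 - dn_term K χ s v.asIdeal) := by
  classical
  induction S using Finset.induction_on with
  | empty =>
    have : dn_coprimeTo (∅ : Finset (HeightOneSpectrum (𝓞 K))) = Set.univ := by
      ext I
      simp [dn_coprimeTo]
    rw [this, Set.indicator_univ, Finset.prod_empty, mul_one]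
    rfl
  | insert v S hv ih =>
    have hsum : Summable (dn_term K χ s) := dn_summable_term χ hχ hs
    have hsumS : Summable ((dn_coprimeTo S).indicator (dn_term K χ s)) := hsum.indicator _
    -- decompose the indicator
    have hdecomp : ∀ I, (dn_coprimeTo (insert v S)).indicator (dn_term K χ s) I =
        (dn_coprimeTo S).indicator (dn_term K χ s) I -
          ({I | v.asIdeal ∣ I}).indicator ((dn_coprimeTo S).indicator (dn_term K χ s)) I := by
      intro I
      by_cases h1 : v.asIdeal ∣ I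
      · have h2 : I ∉ dn_coprimeTo (insert v S) := fun h ↦ h v (Finset.mem_insert_self v S) h1
        rw [Set.indicator_of_notMem h2, Set.indicator_of_mem (show I ∈ {I | v.asIdeal ∣ I} from h1),
          sub_self]
      · rw [Set.indicator_of_notMem (show I ∉ {I | v.asIdeal ∣ I} from h1), sub_zero]
        by_cases h3 : I ∈ dn_coprimeTo S
        · have h4 : I ∈ dn_coprimeTo (insert v S) := by
            intro w hw
            rcases Finset.mem_insert.mp hw with rfl | hw
            · exact h1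
            · exact h3 w hw
          rw [Set.indicator_of_mem h4, Set.indicator_of_mem h3]
        · have h4 : I ∉ dn_coprimeTo (insert v S) := fun h ↦
            h3 fun w hw ↦ h w (Finset.mem_insert_of_mem hw)
          rw [Set.indicator_of_notMem h4, Set.indicator_of_notMem h3]
    have hsumV : Summable (({I | v.asIdeal ∣ I}).indicator
        ((dn_coprimeTo S).indicator (dn_term K χ s))) := hsumS.indicator _
    rw [tsum_congr hdecomp, hsumS.tsum_sub hsumV, ih]
    -- the multiples of `v`
    have hinj : Function.Injective fun J : Ideal (𝓞 K) ↦ v.asIdeal * J :=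
      mul_right_injective₀ v.ne_bot
    have hsupp : Function.support (({I | v.asIdeal ∣ I}).indicator
        ((dn_coprimeTo S).indicator (dn_term K χ s))) ⊆
        Set.range fun J : Ideal (𝓞 K) ↦ v.asIdeal * J := by
      intro I hI
      have h1 : I ∈ {I | v.asIdeal ∣ I} := by
        by_contra h
        exact hI (Set.indicator_of_notMem h _)
      obtain ⟨J, rfl⟩ := h1
      exact ⟨J, rfl⟩
    rw [← hinj.tsum_eq hsupp]
    have hterm : ∀ J : Ideal (𝓞 K), ({I | v.asIdeal ∣ I}).indicator
        ((dn_coprimeTo S).indicator (dn_term K χ s)) (v.asIdeal * J) =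
        dn_term K χ s v.asIdeal * (dn_coprimeTo S).indicator (dn_term K χ s) J := by
      intro J
      rw [Set.indicator_of_mem (show v.asIdeal * J ∈ {I | v.asIdeal ∣ I} from Dvd.intro J rfl)]
      by_cases h3 : J ∈ dn_coprimeTo S
      · rw [Set.indicator_of_mem ((dn_mul_mem_coprimeTo_iff S v hv J).mpr h3),
          Set.indicator_of_mem h3, dn_term_mul]
      · rw [Set.indicator_of_notMem (fun h ↦ h3 ((dn_mul_mem_coprimeTo_iff S v hv J).mp h)),
          Set.indicator_of_notMem h3, mul_zero]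
    rw [tsum_congr hterm, tsum_mul_left, ih, Finset.prod_insert hv]
    ring

end Fermat.Agent.S14
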