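import Mathlib
import Fermat.Agent.S14.Density.EulerSieve

/-!
Euler product in logarithmic form for Dirichlet series over ideals of a number field.
-/

set_option autoImplicit false

namespace Fermat.Agent.S14

open NumberField Ideal Filter Topology IsDedekindDomain

variable {K : Type*} [Field K] [NumberField K]

/-- Every ideal other than `⊥` and `⊤` is divisible by a prime. -/
lemma dn_exists_prime_dvd {I : Ideal (𝓞 K)} (h0 : I ≠ ⊥) (h1 : I ≠ ⊤) :
    ∃ v : HeightOneSpectrum (𝓞 K), v.asIdeal ∣ I := by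
  obtain ⟨M, hM, hIM⟩ := Ideal.exists_le_maximal I h1
  have hMbot : M ≠ ⊥ := fun h ↦ h0 (le_bot_iff.mp (h ▸ hIM))
  exact ⟨⟨M, hM.isPrime, hMbot⟩, Ideal.dvd_iff_le.mpr hIM⟩

lemma dn_term_bot (χ : Ideal (𝓞 K) →* ℂ) {s : ℝ} (hs : 1 < s) : dn_term K χ s ⊥ = 0 := by
  unfold dn_term
  have : -s ≠ 0 := by linarith
  simp [Real.zero_rpow this]

/-- The sifted sums tend to `1`. -/
theorem dn_tendsto_tsum_coprimeTo (χ : Ideal (𝓞 K) →* ℂ) (hχ : ∀ I, ‖χ I‖ ≤ 1) {s : ℝ}
    (hs : 1 < s) :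
    Tendsto (fun S : Finset (HeightOneSpectrum (𝓞 K)) ↦
      ∑' I : Ideal (𝓞 K), (dn_coprimeTo S).indicator (dn_term K χ s) I) atTop (𝓝 1) := by
  classical
  have key := tendsto_tsum_of_dominated_convergence (𝓕 := (atTop : Filter (Finset
    (HeightOneSpectrum (𝓞 K)))))
    (f := fun S I ↦ (dn_coprimeTo S).indicator (dn_term K χ s) I)
    (g := fun I ↦ if I = ⊤ then (1 : ℂ) else 0)
    (bound := fun I ↦ (absNorm I : ℝ) ^ (-s)) (dn_summable_norm_rpow K hs) ?_ ?_
  · rw [tsum_ite_eq] at key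
    exact key
  · intro I
    by_cases h1 : I = ⊤
    · subst h1
      rw [if_pos rfl]
      have : ∀ S : Finset (HeightOneSpectrum (𝓞 K)),
          (dn_coprimeTo S).indicator (dn_term K χ s) ⊤ = 1 := by
        intro S
        have hmem : (⊤ : Ideal (𝓞 K)) ∈ dn_coprimeTo S := by
          intro v _ hdvd
          exact v.isPrime.ne_top (top_le_iff.mp (Ideal.le_of_dvd hdvd))
        rw [Set.indicator_of_mem hmem, ← Ideal.one_eq_top, dn_term_one]
      simp_rw [this]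
      exact tendsto_const_nhds
    · rw [if_neg h1]
      by_cases h0 : I = ⊥
      · subst h0
        have : ∀ S : Finset (HeightOneSpectrum (𝓞 K)),
            (dn_coprimeTo S).indicator (dn_term K χ s) ⊥ = 0 := by
          intro S
          by_cases hm : (⊥ : Ideal (𝓞 K)) ∈ dn_coprimeTo S
          · rw [Set.indicator_of_mem hm, dn_term_bot χ hs]
          · rw [Set.indicator_of_notMem hm]
        simp_rw [this]
        exact tendsto_const_nhds
      · obtain ⟨v, hv⟩ := dn_exists_prime_dvd h0 h1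
        refine tendsto_const_nhds.congr' ?_
        filter_upwards [eventually_ge_atTop ({v} : Finset (HeightOneSpectrum (𝓞 K)))] with S hS
        have hm : I ∉ dn_coprimeTo S := fun h ↦
          h v (hS (Finset.mem_singleton_self v)) hv
        rw [Set.indicator_of_notMem hm]
  · filter_upwards with S I
    by_cases hm : I ∈ dn_coprimeTo S
    · rw [Set.indicator_of_mem hm]
      exact dn_norm_term_le χ hχ s I
    · rw [Set.indicator_of_notMem hm, norm_zero]
      positivity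

/-- The Euler product, sieve form. -/
theorem dn_tendsto_L_mul_prod (χ : Ideal (𝓞 K) →* ℂ) (hχ : ∀ I, ‖χ I‖ ≤ 1) {s : ℝ}
    (hs : 1 < s) :
    Tendsto (fun S : Finset (HeightOneSpectrum (𝓞 K)) ↦
      dn_L K χ s * ∏ v ∈ S, (1 - dn_term K χ s v.asIdeal)) atTop (𝓝 1) :=
  (dn_tendsto_tsum_coprimeTo χ hχ hs).congr fun S ↦ dn_tsum_coprimeTo χ hχ hs S

/-- The Dirichlet series does not vanish for `s > 1`. -/
theorem dn_L_ne_zero (χ : Ideal (𝓞 K) →* ℂ) (hχ : ∀ I, ‖χ I‖ ≤ 1) {s : ℝ} (hs : 1 < s) :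
    dn_L K χ s ≠ 0 := by
  intro h
  have h1 := dn_tendsto_L_mul_prod χ hχ hs
  simp_rw [h, zero_mul] at h1
  exact zero_ne_one (tendsto_nhds_unique tendsto_const_nhds h1)

/-- The norm of a prime is at least `2`. -/
lemma dn_two_le_absNorm (v : HeightOneSpectrum (𝓞 K)) : 2 ≤ absNorm v.asIdeal := by
  have h0 : absNorm v.asIdeal ≠ 0 := fun h ↦ v.ne_bot (Ideal.absNorm_eq_zero_iff.mp h)
  have h1 : absNorm v.asIdeal ≠ 1 := fun h ↦ v.isPrime.ne_top (Ideal.absNorm_eq_one_iff.mp h)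
  omega

lemma dn_one_le_absNorm (v : HeightOneSpectrum (𝓞 K)) : (1 : ℝ) ≤ absNorm v.asIdeal := by
  have := dn_two_le_absNorm v
  exact_mod_cast (by omega : 1 ≤ absNorm v.asIdeal)

lemma dn_rpow_le_half (v : HeightOneSpectrum (𝓞 K)) {s : ℝ} (hs : 1 < s) :
    (absNorm v.asIdeal : ℝ) ^ (-s) ≤ 1 / 2 := by
  have h2 : (2 : ℝ) ≤ absNorm v.asIdeal := by exact_mod_cast dn_two_le_absNorm v
  calc (absNorm v.asIdeal : ℝ) ^ (-s) ≤ (2 : ℝ) ^ (-s) :=
        Real.rpow_le_rpow_of_nonpos (by norm_num) h2 (by linarith)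
    _ ≤ (2 : ℝ) ^ (-1 : ℝ) := Real.rpow_le_rpow_of_exponent_le (by norm_num) (by linarith)
    _ = 1 / 2 := by rw [Real.rpow_neg_one]; norm_num

/-- Summability over the primes of `N(P)^(-s)`, `s > 1`. -/
lemma dn_summable_prime_rpow {s : ℝ} (hs : 1 < s) :
    Summable fun v : HeightOneSpectrum (𝓞 K) ↦ (absNorm v.asIdeal : ℝ) ^ (-s) :=
  (dn_summable_norm_rpow K hs).comp_injective
    (i := fun v : HeightOneSpectrum (𝓞 K) ↦ v.asIdeal) fun _ _ h ↦ HeightOneSpectrum.ext h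

variable (K) in
/-- The constant bounding the higher order terms of the Euler product. -/
noncomputable def dn_C : ℝ := ∑' v : HeightOneSpectrum (𝓞 K), (absNorm v.asIdeal : ℝ) ^ (-2 : ℝ)

/-- Elementary estimate: `-log |1 - z| = Re z + O(|z|^2)`. -/
lemma dn_abs_log_norm_one_sub (z : ℂ) (hz : ‖z‖ ≤ 1 / 2) :
    |(-Real.log ‖1 - z‖) - z.re| ≤ ‖z‖ ^ 2 := by
  have h1 : ‖-z‖ < 1 := by rw [norm_neg]; linarith
  have h2 := Complex.norm_log_one_add_sub_self_le h1
  rw [norm_neg] at h2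
  have h3 : ‖z‖ ^ 2 * (1 - ‖z‖)⁻¹ / 2 ≤ ‖z‖ ^ 2 := by
    have h4 : (1 - ‖z‖)⁻¹ ≤ 2 := by
      rw [inv_le_comm₀ (by linarith) (by norm_num)]
      linarith
    have h5 : 0 ≤ ‖z‖ ^ 2 := by positivity
    nlinarith
  have h6 : (-Real.log ‖1 - z‖) - z.re = -(Complex.log (1 + -z) - -z).re := by
    rw [Complex.sub_re, Complex.log_re, Complex.neg_re, ← sub_eq_add_neg]
    ring
  rw [h6, abs_neg]
  exact (Complex.abs_re_le_norm _).trans (h2.trans h3)

/-- **Euler product, logarithmic form**: `log |L(s, χ)| = Re ∑_P χ(P) N(P)^(-s) + O(1)`, with an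
explicit constant depending only on the field. -/
theorem dn_abs_log_norm_L_sub_le (χ : Ideal (𝓞 K) →* ℂ) (hχ : ∀ I, ‖χ I‖ ≤ 1) {s : ℝ}
    (hs : 1 < s) :
    |Real.log ‖dn_L K χ s‖ -
      ∑' v : HeightOneSpectrum (𝓞 K), (dn_term K χ s v.asIdeal).re| ≤ dn_C K := by
  classical
  set z : HeightOneSpectrum (𝓞 K) → ℂ := fun v ↦ dn_term K χ s v.asIdeal with hz
  have hzle : ∀ v, ‖z v‖ ≤ (absNorm v.asIdeal : ℝ) ^ (-s) := fun v ↦
    dn_norm_term_le χ hχ s v.asIdeal
  have hzhalf : ∀ v, ‖z v‖ ≤ 1 / 2 := fun v ↦ (hzle v).trans (dn_rpow_le_half v hs)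
  have hne : ∀ v, ‖1 - z v‖ ≠ 0 := by
    intro v h
    rw [norm_eq_zero, sub_eq_zero] at h
    have := hzhalf v
    rw [← h, norm_one] at this
    linarith
  -- the logarithm of the Euler product
  have h1 := (dn_tendsto_L_mul_prod χ hχ hs).norm
  rw [norm_one] at h1
  have h2 : Tendsto (fun S : Finset (HeightOneSpectrum (𝓞 K)) ↦
      Real.log ‖dn_L K χ s‖ + ∑ v ∈ S, Real.log ‖1 - z v‖) atTop (𝓝 0) := by
    have h3 := (Real.continuousAt_log (one_ne_zero)).tendsto.comp h1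
    rw [Real.log_one] at h3
    refine h3.congr fun S ↦ ?_
    simp only [Function.comp_apply]
    rw [norm_mul, norm_prod, Real.log_mul (norm_ne_zero_iff.mpr (dn_L_ne_zero χ hχ hs))
      (Finset.prod_ne_zero_iff.mpr fun v _ ↦ hne v), Real.log_prod (fun v _ ↦ hne v)]
  have hlogsum : HasSum (fun v ↦ Real.log ‖1 - z v‖) (-Real.log ‖dn_L K χ s‖) := by
    rw [HasSum, SummationFilter.unconditional_filter]
    have h4 := h2.const_add (-Real.log ‖dn_L K χ s‖)
    rw [add_zero] at h4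
    refine h4.congr fun S ↦ ?_
    ring
  -- the main sum
  have hresum : Summable fun v ↦ (z v).re := by
    refine Summable.of_norm_bounded (dn_summable_prime_rpow hs) fun v ↦ ?_
    exact (Complex.abs_re_le_norm _).trans (hzle v)
  have hdiff : HasSum (fun v ↦ (-Real.log ‖1 - z v‖) - (z v).re)
      (Real.log ‖dn_L K χ s‖ - ∑' v, (z v).re) := by
    have := hlogsum.neg.sub hresum.hasSum
    rwa [neg_neg] at this
  have hsq : Summable fun v : HeightOneSpectrum (𝓞 K) ↦ (absNorm v.asIdeal : ℝ) ^ (-2 : ℝ) :=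
    dn_summable_prime_rpow (by norm_num)
  have hbound : ∀ v, |(-Real.log ‖1 - z v‖) - (z v).re| ≤ (absNorm v.asIdeal : ℝ) ^ (-2 : ℝ) := by
    intro v
    refine (dn_abs_log_norm_one_sub (z v) (hzhalf v)).trans ?_
    have h5 : ‖z v‖ ^ 2 ≤ ((absNorm v.asIdeal : ℝ) ^ (-s)) ^ 2 :=
      pow_le_pow_left₀ (norm_nonneg _) (hzle v) 2
    refine h5.trans ?_
    have h6 : (1 : ℝ) ≤ absNorm v.asIdeal := by
      have := dn_two_le_absNorm v
      exact_mod_cast (by omega : 1 ≤ absNorm v.asIdeal)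
    rw [← Real.rpow_natCast, ← Real.rpow_mul (Nat.cast_nonneg _)]
    exact Real.rpow_le_rpow_of_exponent_le h6 (by push_cast; linarith)
  rw [← hdiff.tsum_eq]
  calc |∑' v, ((-Real.log ‖1 - z v‖) - (z v).re)|
      ≤ ∑' v, |(-Real.log ‖1 - z v‖) - (z v).re| := by
        have hs1 : Summable fun v ↦ |(-Real.log ‖1 - z v‖) - (z v).re| :=
          Summable.of_nonneg_of_le (fun _ ↦ abs_nonneg _) hbound hsq
        have := norm_tsum_le_tsum_norm (f := fun v ↦ (-Real.log ‖1 - z v‖) - (z v).re)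
          (by simpa [Real.norm_eq_abs] using hs1)
        simpa [Real.norm_eq_abs] using this
    _ ≤ dn_C K := by
        have hs1 : Summable fun v ↦ |(-Real.log ‖1 - z v‖) - (z v).re| :=
          Summable.of_nonneg_of_le (fun _ ↦ abs_nonneg _) hbound hsq
        exact hs1.tsum_le_tsum hbound hsq

end Fermat.Agent.S14
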