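import Mathlib
import Fermat.Agent.S14.Density.EulerLog

/-!
The primes of a number field whose norm is not a prime number contribute a bounded amount to the
prime sum.
-/

set_option autoImplicit false

namespace Fermat.Agent.S14

open NumberField Ideal Filter Topology IsDedekindDomain

variable {k : Type*} [Field k] [NumberField k]

lemma dn_isPrimePow_absNorm (v : HeightOneSpectrum (𝓞 k)) : IsPrimePow (absNorm v.asIdeal) := by
  have := v.isMaximal
  let _ : Field (𝓞 k ⧸ v.asIdeal) := Ideal.Quotient.field v.asIdeal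
  have : Finite (𝓞 k ⧸ v.asIdeal) := Ideal.finiteQuotientOfFreeOfNeBot v.asIdeal v.ne_bot
  have : Fintype (𝓞 k ⧸ v.asIdeal) := Fintype.ofFinite _
  rw [Ideal.absNorm_apply, Submodule.cardQuot_apply, Nat.card_eq_fintype_card]
  exact Fintype.isPrimePow_card_of_field

/-- The residue characteristic of a prime. -/
noncomputable def dn_charOf (v : HeightOneSpectrum (𝓞 k)) : ℕ := (absNorm v.asIdeal).minFac

lemma dn_charOf_prime (v : HeightOneSpectrum (𝓞 k)) : (dn_charOf v).Prime := by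
  have := dn_two_le_absNorm v
  exact Nat.minFac_prime (by omega)

lemma dn_absNorm_eq_charOf_pow (v : HeightOneSpectrum (𝓞 k)) :
    dn_charOf v ^ (absNorm v.asIdeal).factorization (dn_charOf v) = absNorm v.asIdeal :=
  (dn_isPrimePow_absNorm v).minFac_pow_factorization_eq

lemma dn_charOf_mem (v : HeightOneSpectrum (𝓞 k)) : ((dn_charOf v : ℕ) : 𝓞 k) ∈ v.asIdeal := by
  have h := Ideal.absNorm_mem v.asIdeal
  rw [← dn_absNorm_eq_charOf_pow v] at h
  push_cast at h
  exact v.isPrime.mem_of_pow_mem _ h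

lemma dn_charOf_le (v : HeightOneSpectrum (𝓞 k)) : dn_charOf v ≤ absNorm v.asIdeal := by
  have := dn_two_le_absNorm v
  exact Nat.minFac_le (by omega)

lemma dn_sq_le_of_not_prime {v : HeightOneSpectrum (𝓞 k)} (h : ¬ (absNorm v.asIdeal).Prime) :
    dn_charOf v ^ 2 ≤ absNorm v.asIdeal := by
  have h1 := dn_absNorm_eq_charOf_pow v
  have hp := dn_charOf_prime v
  set f := (absNorm v.asIdeal).factorization (dn_charOf v) with hf
  have hf2 : 2 ≤ f := by
    by_contra hlt
    have : f = 0 ∨ f = 1 := by omega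
    rcases this with h0 | h0
    · rw [h0, pow_zero] at h1
      have := dn_two_le_absNorm v
      omega
    · rw [h0, pow_one] at h1
      exact h (h1 ▸ hp)
  calc dn_charOf v ^ 2 ≤ dn_charOf v ^ f := Nat.pow_le_pow_right hp.pos hf2
    _ = _ := h1

/-- At most `[k : ℚ]` primes have a given residue characteristic. -/
lemma dn_card_le_of_charOf_eq (T : Finset (HeightOneSpectrum (𝓞 k))) (p : ℕ)
    (hT : ∀ v ∈ T, dn_charOf v = p) : T.card ≤ Module.finrank ℚ k := by
  classical
  rcases T.eq_empty_or_nonempty with rfl | ⟨v₀, hv₀⟩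
  · simp
  have hp : p.Prime := hT v₀ hv₀ ▸ dn_charOf_prime v₀
  have hinj : Set.InjOn (fun v : HeightOneSpectrum (𝓞 k) ↦ v.asIdeal) T := fun _ _ _ _ h ↦
    HeightOneSpectrum.ext h
  have hdvd : ∏ v ∈ T, v.asIdeal ∣ Ideal.span {((p : ℕ) : 𝓞 k)} := by
    rw [← Finset.prod_image (f := fun I : Ideal (𝓞 k) ↦ I) hinj]
    refine Finset.prod_primes_dvd _ ?_ ?_
    · intro I hI
      obtain ⟨v, _, rfl⟩ := Finset.mem_image.mp hI
      exact v.prime
    · intro I hI
      obtain ⟨v, hv, rfl⟩ := Finset.mem_image.mp hI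
      rw [Ideal.dvd_iff_le, Ideal.span_singleton_le_iff_mem, ← hT v hv]
      exact dn_charOf_mem v
  have h1 := Ideal.absNorm_dvd_absNorm_of_le (Ideal.le_of_dvd hdvd)
  rw [map_prod] at h1
  have h2 : absNorm (Ideal.span {((p : ℕ) : 𝓞 k)}) = p ^ Module.finrank ℚ k := by
    rw [Ideal.absNorm_span_singleton, show ((p : ℕ) : 𝓞 k) = algebraMap ℤ (𝓞 k) (p : ℤ) by simp,
      Algebra.norm_algebraMap, RingOfIntegers.rank, Int.natAbs_pow, Int.natAbs_natCast]
  rw [h2] at h1
  have h3 : p ^ T.card ≤ ∏ v ∈ T, absNorm v.asIdeal := by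
    rw [← Finset.prod_const]
    refine Finset.prod_le_prod' fun v hv ↦ ?_
    rw [← hT v hv]
    exact dn_charOf_le v
  have h4 := h3.trans (Nat.le_of_dvd (pow_pos hp.pos _) h1)
  exact (Nat.pow_le_pow_iff_right hp.one_lt).mp h4

variable (k) in
/-- The bound for the primes of degree at least two. -/
noncomputable def dn_degConst : ℝ := (Module.finrank ℚ k : ℝ) * ∑' n : ℕ, ((n : ℝ) ^ (2 : ℝ))⁻¹

variable (k) in
/-- The primes whose norm is not a prime number contribute a bounded amount. -/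
theorem dn_nonDegOne_le {s : ℝ} (hs : 1 < s) :
    ({v : HeightOneSpectrum (𝓞 k) | ¬ (absNorm v.asIdeal).Prime}).primeIdealZetaSum s ≤
      dn_degConst k := by
  classical
  rw [NumberField.Set.primeIdealZetaSum_def]
  refine Real.tsum_le_of_sum_le (fun _ ↦ by positivity) fun U ↦ ?_
  have hsum2 : Summable fun n : ℕ ↦ ((n : ℝ) ^ (2 : ℝ))⁻¹ :=
    Real.summable_nat_rpow_inv.mpr (by norm_num)
  -- each term is at most `p ^ (-2)`
  have hterm : ∀ v ∈ U, (absNorm v.1.asIdeal : ℝ) ^ (-s) ≤ ((dn_charOf v.1 : ℝ) ^ (2 : ℝ))⁻¹ := by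
    intro v _
    have hN := dn_one_le_absNorm v.1
    have h1 : (absNorm v.1.asIdeal : ℝ) ^ (-s) ≤ (absNorm v.1.asIdeal : ℝ) ^ (-1 : ℝ) :=
      Real.rpow_le_rpow_of_exponent_le hN (by linarith)
    have h2 : ((dn_charOf v.1 : ℝ)) ^ (2 : ℝ) ≤ absNorm v.1.asIdeal := by
      rw [Real.rpow_two]
      exact_mod_cast dn_sq_le_of_not_prime v.2
    have hp : (0 : ℝ) < (dn_charOf v.1 : ℝ) ^ (2 : ℝ) := by
      have := (dn_charOf_prime v.1).pos
      positivity
    rw [Real.rpow_neg_one] at h1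
    exact h1.trans (inv_anti₀ hp h2)
  refine (Finset.sum_le_sum hterm).trans ?_
  -- regroup according to the residue characteristic
  set P : Finset ℕ := U.image fun v ↦ dn_charOf v.1 with hP
  rw [← Finset.sum_fiberwise_of_maps_to (s := U) (t := P) (g := fun v ↦ dn_charOf v.1)
    (fun v hv ↦ Finset.mem_image_of_mem _ hv)]
  have hfib : ∀ p ∈ P, ∑ v ∈ U with dn_charOf v.1 = p, ((dn_charOf v.1 : ℝ) ^ (2 : ℝ))⁻¹ ≤
      (Module.finrank ℚ k : ℝ) * ((p : ℝ) ^ (2 : ℝ))⁻¹ := by
    intro p _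
    have h1 : ∑ v ∈ U with dn_charOf v.1 = p, ((dn_charOf v.1 : ℝ) ^ (2 : ℝ))⁻¹ =
        ∑ v ∈ U with dn_charOf v.1 = p, ((p : ℝ) ^ (2 : ℝ))⁻¹ := by
      refine Finset.sum_congr rfl fun v hv ↦ ?_
      rw [(Finset.mem_filter.mp hv).2]
    rw [h1, Finset.sum_const, nsmul_eq_mul]
    refine mul_le_mul_of_nonneg_right ?_ (by positivity)
    have h2 : ((U.filter fun v ↦ dn_charOf v.1 = p).image Subtype.val).card ≤
        Module.finrank ℚ k := by
      refine dn_card_le_of_charOf_eq _ p fun v hv ↦ ?_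
      obtain ⟨w, hw, rfl⟩ := Finset.mem_image.mp hv
      exact (Finset.mem_filter.mp hw).2
    rw [Finset.card_image_of_injective _ Subtype.val_injective] at h2
    exact_mod_cast h2
  refine (Finset.sum_le_sum hfib).trans ?_
  rw [← Finset.mul_sum]
  unfold dn_degConst
  refine mul_le_mul_of_nonneg_left ?_ (by positivity)
  exact hsum2.sum_le_tsum P fun _ _ ↦ by positivity

end Fermat.Agent.S14
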