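import Mathlib
import Fermat.Agent.S14.Density.EulerLog

/-!
The sum of `N(P)^(-s)` over the primes of a number field is `log (1/(s-1)) + O(1)`.
-/

set_option autoImplicit false

namespace Fermat.Agent.S14

open NumberField Ideal Filter Topology IsDedekindDomain

variable (K : Type*) [Field K] [NumberField K]

/-- The Dedekind zeta function at a real argument, as a sum over all ideals. -/
noncomputable def dn_zeta (s : ℝ) : ℝ := ∑' I : Ideal (𝓞 K), (absNorm I : ℝ) ^ (-s)

lemma dn_L_one (s : ℝ) : dn_L K 1 s = (dn_zeta K s : ℂ) := by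
  unfold dn_L dn_zeta dn_term
  rw [Complex.ofReal_tsum]
  refine tsum_congr fun I ↦ ?_
  simp

/-- Regrouping the sum over ideals according to the norm. -/
lemma dn_zeta_eq_tsum_card {s : ℝ} (hs : 1 < s) :
    dn_zeta K s =
      ∑' n : ℕ, (Nat.card {I : Ideal (𝓞 K) // absNorm I = n} : ℝ) * (n : ℝ) ^ (-s) := by
  unfold dn_zeta
  have hfin : ∀ n : ℕ, Finite {I : Ideal (𝓞 K) // absNorm I = n} := fun n ↦
    (finite_setOfPred_absNorm_eq n).to_subtype
  have hsum := dn_summable_norm_rpow K hs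
  rw [← (Equiv.sigmaFiberEquiv (absNorm : Ideal (𝓞 K) → ℕ)).tsum_eq]
  have hsum' := (Equiv.sigmaFiberEquiv (absNorm : Ideal (𝓞 K) → ℕ)).summable_iff.mpr hsum
  have h5 := Summable.tsum_sigma' (f := (fun I : Ideal (𝓞 K) ↦ (absNorm I : ℝ) ^ (-s)) ∘
    (Equiv.sigmaFiberEquiv (absNorm : Ideal (𝓞 K) → ℕ)))
    (fun n ↦ by have := hfin n; exact Summable.of_finite) hsum'
  simp only [Function.comp_apply] at h5
  rw [h5]
  refine tsum_congr fun n ↦ ?_
  have := hfin n
  have h3 : ∀ I : {I : Ideal (𝓞 K) // absNorm I = n},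
      (fun I : Ideal (𝓞 K) ↦ (absNorm I : ℝ) ^ (-s))
        ((Equiv.sigmaFiberEquiv (absNorm : Ideal (𝓞 K) → ℕ)) ⟨n, I⟩) = (n : ℝ) ^ (-s) := by
    intro I
    simp [Equiv.sigmaFiberEquiv, I.2]
  simp_rw [h3]
  rw [tsum_const, nsmul_eq_mul]

lemma dn_zeta_eq_dedekindZeta {s : ℝ} (hs : 1 < s) :
    (dn_zeta K s : ℂ) = dedekindZeta K s := by
  rw [dn_zeta_eq_tsum_card K hs, dedekindZeta, LSeries, Complex.ofReal_tsum]
  refine tsum_congr fun n ↦ ?_
  rcases Nat.eq_zero_or_pos n with rfl | hn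
  · have : -s ≠ 0 := by linarith
    simp [Real.zero_rpow this]
  · rw [LSeries.term_of_ne_zero hn.ne', Complex.ofReal_mul, Complex.ofReal_natCast,
      Real.rpow_neg (Nat.cast_nonneg _), Complex.ofReal_inv,
      Complex.ofReal_cpow (Nat.cast_nonneg _), Complex.ofReal_natCast, div_eq_mul_inv]

lemma dn_zeta_pos {s : ℝ} (hs : 1 < s) : 0 < dn_zeta K s := by
  unfold dn_zeta
  have hsum := dn_summable_norm_rpow K hs
  refine hsum.tsum_pos (fun I ↦ by positivity) (⊤ : Ideal (𝓞 K)) ?_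
  simp

/-- The residue formula for the real Dedekind zeta function. -/
theorem dn_tendsto_sub_one_mul_zeta :
    Tendsto (fun s : ℝ ↦ (s - 1) * dn_zeta K s) (𝓝[>] 1) (𝓝 (dedekindZeta_residue K)) := by
  have h := tendsto_sub_one_mul_dedekindZeta_nhdsGT K
  have h2 : Tendsto (fun s : ℝ ↦ (((s - 1) * dn_zeta K s : ℝ) : ℂ)) (𝓝[>] 1)
      (𝓝 ((dedekindZeta_residue K : ℝ) : ℂ)) := by
    refine h.congr' ?_
    filter_upwards [self_mem_nhdsWithin] with s hs
    rw [← dn_zeta_eq_dedekindZeta K hs]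
    push_cast
    ring
  exact Complex.continuous_re.continuousAt.tendsto.comp h2 |>.congr (by intro s; simp)

/-- `log ζ_K(s) = log (1/(s-1)) + O(1)` near `1`. -/
theorem dn_log_zeta_bound :
    ∃ C : ℝ, ∀ᶠ s in 𝓝[>] (1 : ℝ), |Real.log (dn_zeta K s) - Real.log (1 / (s - 1))| ≤ C := by
  have h := dn_tendsto_sub_one_mul_zeta K
  have hpos := dedekindZeta_residue_pos K
  have h2 := (Real.continuousAt_log hpos.ne').tendsto.comp h
  refine ⟨|Real.log (dedekindZeta_residue K)| + 1, ?_⟩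
  have h3 : ∀ᶠ s in 𝓝[>] (1 : ℝ),
      |Real.log ((s - 1) * dn_zeta K s) - Real.log (dedekindZeta_residue K)| < 1 := by
    have := (tendsto_sub_nhds_zero_iff.mpr h2).abs
    rw [abs_zero] at this
    exact this.eventually (gt_mem_nhds zero_lt_one)
  filter_upwards [h3, self_mem_nhdsWithin] with s hs1 hs
  have hs' : (0 : ℝ) < s - 1 := sub_pos.mpr hs
  have hz := dn_zeta_pos K hs
  rw [Real.log_mul hs'.ne' hz.ne'] at hs1
  rw [one_div, Real.log_inv]
  have h4 : Real.log (dn_zeta K s) - -Real.log (s - 1) =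
      (Real.log (s - 1) + Real.log (dn_zeta K s) - Real.log (dedekindZeta_residue K)) +
        Real.log (dedekindZeta_residue K) := by ring
  rw [h4]
  calc _ ≤ |Real.log (s - 1) + Real.log (dn_zeta K s) - Real.log (dedekindZeta_residue K)| +
        |Real.log (dedekindZeta_residue K)| := abs_add_le _ _
    _ ≤ 1 + |Real.log (dedekindZeta_residue K)| := by linarith
    _ = _ := by ring

/-- The sum over all primes of `N(P)^(-s)`. -/
noncomputable def dn_primeSum (s : ℝ) : ℝ :=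
  ∑' v : HeightOneSpectrum (𝓞 K), (absNorm v.asIdeal : ℝ) ^ (-s)

/-- `∑_P N(P)^(-s) = log (1/(s-1)) + O(1)` near `1`. -/
theorem dn_primeSum_bound :
    ∃ C : ℝ, ∀ᶠ s in 𝓝[>] (1 : ℝ), |dn_primeSum K s - Real.log (1 / (s - 1))| ≤ C := by
  obtain ⟨C, hC⟩ := dn_log_zeta_bound K
  refine ⟨dn_C K + C, ?_⟩
  filter_upwards [hC, self_mem_nhdsWithin] with s hs1 hs
  have h1 := dn_abs_log_norm_L_sub_le (K := K) 1 (fun _ ↦ by simp) hs
  rw [dn_L_one, Complex.norm_real, Real.norm_of_nonneg (dn_zeta_pos K hs).le] at h1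
  have h2 : ∑' v : HeightOneSpectrum (𝓞 K), (dn_term K 1 s v.asIdeal).re = dn_primeSum K s := by
    unfold dn_primeSum dn_term
    refine tsum_congr fun v ↦ ?_
    simp
  rw [h2] at h1
  have h3 : dn_primeSum K s - Real.log (1 / (s - 1)) =
      -(Real.log (dn_zeta K s) - dn_primeSum K s) +
        (Real.log (dn_zeta K s) - Real.log (1 / (s - 1))) := by ring
  rw [h3]
  calc _ ≤ |-(Real.log (dn_zeta K s) - dn_primeSum K s)| +
        |Real.log (dn_zeta K s) - Real.log (1 / (s - 1))| := abs_add_le _ _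
    _ ≤ dn_C K + C := by rw [abs_neg]; linarith

end Fermat.Agent.S14
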