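import Mathlib
import Fermat.Agent.S14.Density.PrimeSum

/-!
The primes of `k` that split completely in a Galois extension `K/k` of degree `n` have Dirichlet
density `1/n`.
-/

set_option autoImplicit false

namespace Fermat.Agent.S14

open NumberField Ideal Filter Topology IsDedekindDomain

attribute [local instance] FractionRing.liftAlgebra

variable (k K : Type*) [Field k] [NumberField k] [Field K] [NumberField K] [Algebra k K]

/-- The primes of `K` above a prime `v` of `k`. -/
def dn_fiber (v : HeightOneSpectrum (𝓞 k)) : Type _ :=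
  {w : HeightOneSpectrum (𝓞 K) // w.under (𝓞 k) = v}

variable {k K}

lemma dn_liesOver_of_under_eq {v : HeightOneSpectrum (𝓞 k)} {w : HeightOneSpectrum (𝓞 K)}
    (h : w.under (𝓞 k) = v) : w.asIdeal.LiesOver v.asIdeal := by
  constructor
  rw [← h]
  rfl

variable (K) in
/-- The primes above `v` as a subtype of ideals. -/
noncomputable def dn_fiberEquiv (v : HeightOneSpectrum (𝓞 k)) :
    dn_fiber k K v ≃ v.asIdeal.primesOver (𝓞 K) where
  toFun w := ⟨w.1.asIdeal, w.1.isPrime, dn_liesOver_of_under_eq w.2⟩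
  invFun P := ⟨⟨P.1, P.2.1, by
      have := P.2.2
      exact Ideal.ne_bot_of_liesOver_of_ne_bot v.ne_bot P.1⟩, by
    apply HeightOneSpectrum.ext
    have := P.2.2
    exact (Ideal.over_def P.1 v.asIdeal).symm⟩
  left_inv w := by
    apply Subtype.ext
    rfl
  right_inv P := by
    apply Subtype.ext
    rfl

instance dn_finite_fiber (v : HeightOneSpectrum (𝓞 k)) : Finite (dn_fiber k K v) :=
  Finite.of_equiv _ (dn_fiberEquiv K v).symm

variable [IsGalois k K]

variable (K) in
/-- The fundamental identity `g e f = n` for a Galois extension of number fields. -/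
lemma dn_card_fiber_mul (v : HeightOneSpectrum (𝓞 k)) :
    Nat.card (dn_fiber k K v) *
      (v.asIdeal.ramificationIdxIn (𝓞 K) * v.asIdeal.inertiaDegIn (𝓞 K)) =
      Module.finrank k K := by
  have := v.isPrime
  rw [Nat.card_congr (dn_fiberEquiv K v), Nat.card_coe_set_eq,
    ncard_primesOver_mul_ramificationIdxIn_mul_inertiaDegIn v.asIdeal (𝓞 K) Gal(K/k),
    IsGalois.card_aut_eq_finrank]

lemma dn_absNorm_of_under_eq {v : HeightOneSpectrum (𝓞 k)} {w : HeightOneSpectrum (𝓞 K)}
    (h : w.under (𝓞 k) = v) :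
    absNorm w.asIdeal = absNorm v.asIdeal ^ v.asIdeal.inertiaDegIn (𝓞 K) := by
  have := dn_liesOver_of_under_eq h
  have := w.isPrime
  rw [inertiaDegIn_eq_inertiaDeg v.asIdeal w.asIdeal Gal(K/k),
    absNorm_pow_inertiaDeg v.asIdeal w.asIdeal]

variable (k K) in
/-- The primes of `k` that split completely in `K`. -/
def dn_splitSet : Set (HeightOneSpectrum (𝓞 k)) :=
  {v | v.asIdeal.ramificationIdxIn (𝓞 K) = 1 ∧ v.asIdeal.inertiaDegIn (𝓞 K) = 1}

variable (k K) in
/-- The primes of `k` that ramify in `K`. -/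
def dn_ramSet : Set (HeightOneSpectrum (𝓞 k)) :=
  {v | v.asIdeal.ramificationIdxIn (𝓞 K) ≠ 1}

variable (k K) in
lemma dn_ramSet_finite : (dn_ramSet k K).Finite := by
  have hfin : {w : HeightOneSpectrum (𝓞 K) | w.asIdeal ∣ differentIdeal (𝓞 k) (𝓞 K)}.Finite :=
    Ideal.finite_factors differentIdeal_ne_bot
  refine (hfin.image fun w ↦ w.under (𝓞 k)).subset ?_
  intro v hv
  have := v.isPrime
  obtain ⟨P, hP1, hP2⟩ : ∃ P : Ideal (𝓞 K), P.IsPrime ∧ P.LiesOver v.asIdeal := by
    obtain ⟨P, hP, hlo⟩ := Ideal.exists_maximal_ideal_liesOver_of_isIntegral (S := 𝓞 K) v.asIdeal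
    exact ⟨P, hP.isPrime, hlo⟩
  have hPbot : P ≠ ⊥ := Ideal.ne_bot_of_liesOver_of_ne_bot v.ne_bot P
  refine ⟨⟨P, hP1, hPbot⟩, ?_, ?_⟩
  · simp only [Set.mem_ofPred_eq]
    rw [dvd_differentIdeal_iff, ← Ideal.ramificationIdx_eq_one_iff,
      ← ramificationIdxIn_eq_ramificationIdx v.asIdeal P Gal(K/k)]
    exact hv
  · apply HeightOneSpectrum.ext
    exact (Ideal.over_def P v.asIdeal).symm

variable (k K) in
/-- The contribution to the prime sum of `K` of the primes above `v`. -/
noncomputable def dn_fiberTerm (s : ℝ) (v : HeightOneSpectrum (𝓞 k)) : ℝ :=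
  (Nat.card (dn_fiber k K v) : ℝ) *
    ((absNorm v.asIdeal ^ v.asIdeal.inertiaDegIn (𝓞 K) : ℕ) : ℝ) ^ (-s)

variable (k K) in
/-- Regrouping the primes of `K` according to the prime of `k` below. -/
lemma dn_hasSum_fiberTerm {s : ℝ} (hs : 1 < s) :
    HasSum (dn_fiberTerm k K s) (dn_primeSum K s) := by
  have hsum := dn_summable_prime_rpow (K := K) hs
  let e := Equiv.sigmaFiberEquiv fun w : HeightOneSpectrum (𝓞 K) ↦ w.under (𝓞 k)
  have hsum' := e.summable_iff.mpr hsum
  have h1 := hsum'.hasSum.sigma (fun v ↦ (hsum'.sigma_factor v).hasSum)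
  have h2 : ∑' x, ((fun w : HeightOneSpectrum (𝓞 K) ↦ (absNorm w.asIdeal : ℝ) ^ (-s)) ∘ e) x =
      dn_primeSum K s := by
    unfold dn_primeSum
    exact e.tsum_eq fun w : HeightOneSpectrum (𝓞 K) ↦ (absNorm w.asIdeal : ℝ) ^ (-s)
  rw [h2] at h1
  refine h1.congr_fun fun v ↦ ?_
  unfold dn_fiberTerm
  have h3 : ∀ w : {w : HeightOneSpectrum (𝓞 K) // w.under (𝓞 k) = v},
      ((fun w : HeightOneSpectrum (𝓞 K) ↦ (absNorm w.asIdeal : ℝ) ^ (-s)) ∘ e) ⟨v, w⟩ =
        ((absNorm v.asIdeal ^ v.asIdeal.inertiaDegIn (𝓞 K) : ℕ) : ℝ) ^ (-s) := by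
    intro w
    simp only [Function.comp_apply, e, Equiv.sigmaFiberEquiv_apply]
    rw [dn_absNorm_of_under_eq w.2]
  simp_rw [h3]
  have : Finite {w : HeightOneSpectrum (𝓞 K) // w.under (𝓞 k) = v} := dn_finite_fiber (K := K) v
  rw [tsum_const, nsmul_eq_mul]
  rfl

lemma dn_fiberTerm_nonneg (s : ℝ) (v : HeightOneSpectrum (𝓞 k)) : 0 ≤ dn_fiberTerm k K s v := by
  unfold dn_fiberTerm
  positivity

variable (K) in
lemma dn_card_fiber_le (v : HeightOneSpectrum (𝓞 k)) :
    Nat.card (dn_fiber k K v) ≤ Module.finrank k K := by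
  have h := dn_card_fiber_mul K v
  have h1 : v.asIdeal.ramificationIdxIn (𝓞 K) * v.asIdeal.inertiaDegIn (𝓞 K) ≠ 0 := by
    intro h0
    rw [h0, mul_zero] at h
    exact (Module.finrank_pos (R := k) (M := K)).ne' h.symm
  calc Nat.card (dn_fiber k K v) ≤ Nat.card (dn_fiber k K v) *
        (v.asIdeal.ramificationIdxIn (𝓞 K) * v.asIdeal.inertiaDegIn (𝓞 K)) :=
        Nat.le_mul_of_pos_right _ (Nat.pos_of_ne_zero h1)
    _ = _ := h

lemma dn_fiberTerm_of_mem_splitSet {s : ℝ} {v : HeightOneSpectrum (𝓞 k)}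
    (hv : v ∈ dn_splitSet k K) :
    dn_fiberTerm k K s v = (Module.finrank k K : ℝ) * (absNorm v.asIdeal : ℝ) ^ (-s) := by
  unfold dn_fiberTerm
  have h := dn_card_fiber_mul K v
  rw [hv.1, hv.2, mul_one, mul_one] at h
  rw [h, hv.2, pow_one]

lemma dn_fiberTerm_le_of_notMem_splitSet {s : ℝ} (hs : 1 < s) {v : HeightOneSpectrum (𝓞 k)}
    (hv : v ∉ dn_splitSet k K) :
    dn_fiberTerm k K s v ≤ (Module.finrank k K : ℝ) * ((absNorm v.asIdeal : ℝ) ^ (-2 : ℝ) +
      (dn_ramSet k K).indicator 1 v) := by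
  unfold dn_fiberTerm
  have hN := dn_one_le_absNorm v
  have hcard : (Nat.card (dn_fiber k K v) : ℝ) ≤ Module.finrank k K := by
    exact_mod_cast dn_card_fiber_le K v
  refine mul_le_mul hcard ?_ (by positivity) (by positivity)
  have h := dn_card_fiber_mul K v
  have hf0 : v.asIdeal.inertiaDegIn (𝓞 K) ≠ 0 := by
    intro h0
    rw [h0, mul_zero, mul_zero] at h
    exact (Module.finrank_pos (R := k) (M := K)).ne' h.symm
  by_cases hf : v.asIdeal.inertiaDegIn (𝓞 K) = 1
  · have hram : v ∈ dn_ramSet k K := fun he ↦ hv ⟨he, hf⟩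
    rw [Set.indicator_of_mem hram, hf, pow_one]
    have h1 : (absNorm v.asIdeal : ℝ) ^ (-s) ≤ 1 :=
      Real.rpow_le_one_of_one_le_of_nonpos hN (by linarith)
    have h2 : (0 : ℝ) ≤ (absNorm v.asIdeal : ℝ) ^ (-2 : ℝ) := by positivity
    simp only [Pi.one_apply]
    linarith
  · have hf2 : 2 ≤ v.asIdeal.inertiaDegIn (𝓞 K) := by omega
    have h2 : (0 : ℝ) ≤ (dn_ramSet k K).indicator (1 : HeightOneSpectrum (𝓞 k) → ℝ) v :=
      Set.indicator_nonneg (fun _ _ ↦ zero_le_one) v
    have h3 : ((absNorm v.asIdeal ^ v.asIdeal.inertiaDegIn (𝓞 K) : ℕ) : ℝ) ^ (-s) ≤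
        (absNorm v.asIdeal : ℝ) ^ (-2 : ℝ) := by
      push_cast
      rw [← Real.rpow_natCast, ← Real.rpow_mul (by positivity)]
      refine Real.rpow_le_rpow_of_exponent_le hN ?_
      have : (2 : ℝ) ≤ (v.asIdeal.inertiaDegIn (𝓞 K) : ℝ) := by exact_mod_cast hf2
      nlinarith
    linarith

variable (k K) in
/-- The constant in the density estimate. -/
noncomputable def dn_splitConst : ℝ :=
  (Module.finrank k K : ℝ) * (dn_C k + (dn_ramSet_finite k K).toFinset.card)

variable (k K) in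
/-- **Splitting density, quantitative form**: the prime sum of `K` is `n` times the prime sum
over the primes of `k` that split completely, up to a bounded error. -/
theorem dn_primeSum_sub_splitSum {s : ℝ} (hs : 1 < s) :
    |dn_primeSum K s - (Module.finrank k K : ℝ) *
      (dn_splitSet k K).primeIdealZetaSum s| ≤ dn_splitConst k K := by
  classical
  have hT := dn_hasSum_fiberTerm k K hs
  have hTs := hT.summable
  set n : ℝ := (Module.finrank k K : ℝ) with hn
  -- the split part
  have hsplit : ∑' v, (dn_splitSet k K).indicator (dn_fiberTerm k K s) v =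
      n * (dn_splitSet k K).primeIdealZetaSum s := by
    rw [NumberField.Set.primeIdealZetaSum_def, ← tsum_mul_left,
      ← tsum_subtype (dn_splitSet k K) (dn_fiberTerm k K s)]
    refine tsum_congr fun v ↦ ?_
    exact dn_fiberTerm_of_mem_splitSet v.2
  -- the rest
  have hbound : Summable fun v : HeightOneSpectrum (𝓞 k) ↦
      n * ((absNorm v.asIdeal : ℝ) ^ (-2 : ℝ) + (dn_ramSet k K).indicator 1 v) := by
    refine Summable.mul_left _ (Summable.add (dn_summable_prime_rpow (by norm_num)) ?_)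
    exact summable_of_hasFiniteSupport ((dn_ramSet_finite k K).subset fun v hv ↦ by
      by_contra h
      exact hv (Set.indicator_of_notMem h _))
  have hrest_le : ∀ v, (dn_splitSet k K)ᶜ.indicator (dn_fiberTerm k K s) v ≤
      n * ((absNorm v.asIdeal : ℝ) ^ (-2 : ℝ) + (dn_ramSet k K).indicator 1 v) := by
    intro v
    by_cases hv : v ∈ dn_splitSet k K
    · rw [Set.indicator_of_notMem (Set.notMem_compl_iff.mpr hv)]
      have h2 : (0 : ℝ) ≤ (dn_ramSet k K).indicator (1 : HeightOneSpectrum (𝓞 k) → ℝ) v :=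
        Set.indicator_nonneg (fun _ _ ↦ zero_le_one) v
      have : (0 : ℝ) ≤ (absNorm v.asIdeal : ℝ) ^ (-2 : ℝ) := by positivity
      have hn0 : 0 ≤ n := by positivity
      positivity
    · rw [Set.indicator_of_mem (show v ∈ (dn_splitSet k K)ᶜ from hv)]
      exact dn_fiberTerm_le_of_notMem_splitSet hs hv
  have hrest_nonneg : ∀ v, 0 ≤ (dn_splitSet k K)ᶜ.indicator (dn_fiberTerm k K s) v := fun v ↦
    Set.indicator_nonneg (fun v _ ↦ dn_fiberTerm_nonneg s v) v
  have hrest_sum : Summable ((dn_splitSet k K)ᶜ.indicator (dn_fiberTerm k K s)) :=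
    hTs.indicator _
  have hdecomp : dn_primeSum K s = n * (dn_splitSet k K).primeIdealZetaSum s +
      ∑' v, (dn_splitSet k K)ᶜ.indicator (dn_fiberTerm k K s) v := by
    rw [← hsplit, ← hT.tsum_eq, ← (hTs.indicator _).tsum_add hrest_sum]
    refine tsum_congr fun v ↦ ?_
    rw [← Set.indicator_self_add_compl_apply (dn_splitSet k K) (dn_fiberTerm k K s) v]
  have hconst : ∑' v : HeightOneSpectrum (𝓞 k),
      n * ((absNorm v.asIdeal : ℝ) ^ (-2 : ℝ) + (dn_ramSet k K).indicator 1 v) =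
      dn_splitConst k K := by
    unfold dn_splitConst dn_C
    rw [tsum_mul_left, Summable.tsum_add (dn_summable_prime_rpow (by norm_num))]
    · congr 2
      rw [← tsum_subtype (dn_ramSet k K) (1 : HeightOneSpectrum (𝓞 k) → ℝ)]
      have := (dn_ramSet_finite k K).fintype
      simp only [Pi.one_apply]
      rw [tsum_fintype, Finset.sum_const, nsmul_eq_mul, mul_one, Finset.card_univ,
        Set.Finite.card_toFinset]
    · exact summable_of_hasFiniteSupport ((dn_ramSet_finite k K).subset fun v hv ↦ by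
        by_contra h
        exact hv (Set.indicator_of_notMem h _))
  rw [hdecomp, add_sub_cancel_left, abs_of_nonneg (tsum_nonneg hrest_nonneg), ← hconst]
  exact hrest_sum.tsum_le_tsum hrest_le hbound

end Fermat.Agent.S14
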