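import Mathlib
import Fermat.Agent.S14.Density.SplitDensity
import Fermat.Agent.S14.Density.DegreeOne

/-!
Existence of infinitely many primes of degree one with prescribed splitting behaviour.
-/

set_option autoImplicit false

namespace Fermat.Agent.S14

open NumberField Ideal Filter Topology IsDedekindDomain

section mass

variable {k : Type*} [Field k] [NumberField k]

lemma dn_summable_subtype_rpow (S : Set (HeightOneSpectrum (𝓞 k))) {s : ℝ} (hs : 1 < s) :
    Summable fun v : S ↦ (absNorm v.1.asIdeal : ℝ) ^ (-s) :=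
  (dn_summable_prime_rpow (K := k) hs).subtype S

lemma dn_primeIdealZetaSum_eq_tsum_indicator (S : Set (HeightOneSpectrum (𝓞 k))) (s : ℝ) :
    S.primeIdealZetaSum s =
      ∑' v, S.indicator (fun v : HeightOneSpectrum (𝓞 k) ↦ (absNorm v.asIdeal : ℝ) ^ (-s)) v := by
  rw [NumberField.Set.primeIdealZetaSum_def, ← tsum_subtype S]

/-- Monotonicity and subadditivity of the partial prime sums. -/
lemma dn_primeIdealZetaSum_le_add {S A B : Set (HeightOneSpectrum (𝓞 k))} (h : S ⊆ A ∪ B) {s : ℝ}
    (hs : 1 < s) : S.primeIdealZetaSum s ≤ A.primeIdealZetaSum s + B.primeIdealZetaSum s := by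
  classical
  simp_rw [dn_primeIdealZetaSum_eq_tsum_indicator]
  have hsum := dn_summable_prime_rpow (K := k) hs
  rw [← (hsum.indicator A).tsum_add (hsum.indicator B)]
  refine (hsum.indicator S).tsum_le_tsum (fun v ↦ ?_) ((hsum.indicator A).add (hsum.indicator B))
  have hpos : (0 : ℝ) ≤ (absNorm v.asIdeal : ℝ) ^ (-s) := by positivity
  by_cases hv : v ∈ S
  · rw [Set.indicator_of_mem hv]
    rcases h hv with hA | hB
    · rw [Set.indicator_of_mem hA]
      have : 0 ≤ B.indicator (fun v : HeightOneSpectrum (𝓞 k) ↦ (absNorm v.asIdeal : ℝ) ^ (-s)) v :=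
        Set.indicator_nonneg (fun _ _ ↦ by positivity) v
      linarith
    · rw [Set.indicator_of_mem hB]
      have : 0 ≤ A.indicator (fun v : HeightOneSpectrum (𝓞 k) ↦ (absNorm v.asIdeal : ℝ) ^ (-s)) v :=
        Set.indicator_nonneg (fun _ _ ↦ by positivity) v
      linarith
  · rw [Set.indicator_of_notMem hv]
    exact add_nonneg (Set.indicator_nonneg (fun _ _ ↦ by positivity) v)
      (Set.indicator_nonneg (fun _ _ ↦ by positivity) v)

lemma dn_primeIdealZetaSum_univ (s : ℝ) :
    (Set.univ : Set (HeightOneSpectrum (𝓞 k))).primeIdealZetaSum s = dn_primeSum k s := by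
  rw [NumberField.Set.primeIdealZetaSum_def, dn_primeSum]
  exact tsum_univ fun v : HeightOneSpectrum (𝓞 k) ↦ (absNorm v.asIdeal : ℝ) ^ (-s)

lemma dn_tendsto_log_atTop :
    Tendsto (fun s : ℝ ↦ Real.log (1 / (s - 1))) (𝓝[>] 1) atTop := by
  have h1 : Tendsto (fun s : ℝ ↦ s - 1) (𝓝[>] 1) (𝓝[>] 0) := by
    refine tendsto_nhdsWithin_of_tendsto_nhds_of_eventually_within _ ?_ ?_
    · have : Tendsto (fun s : ℝ ↦ s - 1) (𝓝 1) (𝓝 (1 - 1)) :=
        (continuous_id.sub continuous_const).tendsto 1
      rw [sub_self] at this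
      exact tendsto_nhdsWithin_of_tendsto_nhds this
    · filter_upwards [self_mem_nhdsWithin] with s hs
      exact sub_pos.mpr (Set.mem_Ioi.mp hs)
  have h2 : Tendsto (fun s : ℝ ↦ 1 / (s - 1)) (𝓝[>] 1) atTop := by
    simp_rw [one_div]
    exact tendsto_inv_nhdsGT_zero.comp h1
  exact Real.tendsto_log_atTop.comp h2

end mass

section main

variable {k : Type*} [Field k] [NumberField k]
  (K : Type*) [Field K] [NumberField K] [Algebra k K] [IsGalois k K]

/-- The mass of the split primes. -/
theorem dn_splitSum_bound :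
    ∃ C : ℝ, ∀ᶠ s in 𝓝[>] (1 : ℝ),
      |(Module.finrank k K : ℝ) * (dn_splitSet k K).primeIdealZetaSum s -
        Real.log (1 / (s - 1))| ≤ C := by
  obtain ⟨C, hC⟩ := dn_primeSum_bound K
  refine ⟨dn_splitConst k K + C, ?_⟩
  filter_upwards [hC, self_mem_nhdsWithin] with s hs1 hs
  have h1 := dn_primeSum_sub_splitSum k K hs
  have h3 : (Module.finrank k K : ℝ) * (dn_splitSet k K).primeIdealZetaSum s -
      Real.log (1 / (s - 1)) =
      -(dn_primeSum K s - (Module.finrank k K : ℝ) * (dn_splitSet k K).primeIdealZetaSum s) +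
        (dn_primeSum K s - Real.log (1 / (s - 1))) := by ring
  rw [h3]
  calc _ ≤ |-(dn_primeSum K s -
        (Module.finrank k K : ℝ) * (dn_splitSet k K).primeIdealZetaSum s)| +
        |dn_primeSum K s - Real.log (1 / (s - 1))| := abs_add_le _ _
    _ ≤ dn_splitConst k K + C := by rw [abs_neg]; linarith

/-- Core existence statement: a set `A` of primes of lower density `> 1/[K:k]` contains infinitely
many primes of degree one that are unramified and do not split completely in `K`. -/
theorem dn_infinite_of_mass (A : Set (HeightOneSpectrum (𝓞 k))) (a : ℝ)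
    (ha : (1 : ℝ) / Module.finrank k K < a)
    (hA : ∃ C : ℝ, ∀ᶠ s in 𝓝[>] (1 : ℝ), a * Real.log (1 / (s - 1)) - C ≤ A.primeIdealZetaSum s) :
    {v : HeightOneSpectrum (𝓞 k) | v ∈ A ∧ (absNorm v.asIdeal).Prime ∧
      v ∉ dn_splitSet k K ∧ v ∉ dn_ramSet k K}.Infinite := by
  intro hfin
  set S := {v : HeightOneSpectrum (𝓞 k) | v ∈ A ∧ (absNorm v.asIdeal).Prime ∧
      v ∉ dn_splitSet k K ∧ v ∉ dn_ramSet k K} with hS
  set n : ℝ := (Module.finrank k K : ℝ) with hn
  have hnpos : 0 < n := by
    have := Module.finrank_pos (R := k) (M := K)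
    positivity
  obtain ⟨C1, hC1⟩ := hA
  obtain ⟨C2, hC2⟩ := dn_splitSum_bound (k := k) K
  set ND := {v : HeightOneSpectrum (𝓞 k) | ¬ (absNorm v.asIdeal).Prime} with hND
  have hcover : A ⊆ (S ∪ dn_splitSet k K) ∪ (dn_ramSet k K ∪ ND) := by
    intro v hv
    by_cases h1 : v ∈ dn_splitSet k K
    · exact Or.inl (Or.inr h1)
    by_cases h2 : v ∈ dn_ramSet k K
    · exact Or.inr (Or.inl h2)
    by_cases h3 : (absNorm v.asIdeal).Prime
    · exact Or.inl (Or.inl ⟨hv, h3, h1, h2⟩)
    · exact Or.inr (Or.inr h3)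
  set B : ℝ := (S.ncard : ℝ) + ((dn_ramSet k K).ncard : ℝ) + dn_degConst k + C1 + C2 / n with hB
  have hev : ∀ᶠ s in 𝓝[>] (1 : ℝ), (a - 1 / n) * Real.log (1 / (s - 1)) ≤ B := by
    filter_upwards [hC1, hC2, self_mem_nhdsWithin] with s h1 h2 hs
    have hs0 : (0 : ℝ) ≤ s := by linarith [show (1 : ℝ) < s from hs]
    have h3 := dn_primeIdealZetaSum_le_add hcover hs
    have h4 := dn_primeIdealZetaSum_le_add (S := S ∪ dn_splitSet k K) (le_refl _) hs
    have h5 := dn_primeIdealZetaSum_le_add (S := dn_ramSet k K ∪ ND) (le_refl _) hs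
    have h6 := NumberField.Set.primeIdealZetaSum_le_card_of_finite hfin hs0
    have h7 := NumberField.Set.primeIdealZetaSum_le_card_of_finite (dn_ramSet_finite k K) hs0
    have h8 := dn_nonDegOne_le k hs
    have h9 : (dn_splitSet k K).primeIdealZetaSum s ≤ (Real.log (1 / (s - 1)) + C2) / n := by
      rw [le_div_iff₀ hnpos, mul_comm]
      have := (abs_le.mp h2).2
      linarith
    have h10 : (Real.log (1 / (s - 1)) + C2) / n = 1 / n * Real.log (1 / (s - 1)) + C2 / n := by
      ring
    rw [hB]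
    linarith
  have hlim := dn_tendsto_log_atTop
  have hδ : 0 < a - 1 / n := sub_pos.mpr ha
  have hev2 : ∀ᶠ s in 𝓝[>] (1 : ℝ), B / (a - 1 / n) + 1 ≤ Real.log (1 / (s - 1)) :=
    hlim.eventually (eventually_ge_atTop _)
  obtain ⟨s, h1, h2⟩ := (hev.and hev2).exists
  have h3 : (a - 1 / n) * (B / (a - 1 / n) + 1) ≤ (a - 1 / n) * Real.log (1 / (s - 1)) :=
    mul_le_mul_of_nonneg_left h2 hδ.le
  have h4 : (a - 1 / n) * (B / (a - 1 / n) + 1) = B + (a - 1 / n) := by
    rw [mul_add, mul_one, mul_div_assoc', mul_div_cancel_left₀ _ hδ.ne']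
  linarith

/-- **Step (N)**: a nontrivial Galois extension has infinitely many primes of degree one of the
base field that are unramified and do not split completely. -/
theorem dn_infinite_not_split (hK : 1 < Module.finrank k K) :
    {v : HeightOneSpectrum (𝓞 k) | (absNorm v.asIdeal).Prime ∧
      v ∉ dn_splitSet k K ∧ v ∉ dn_ramSet k K}.Infinite := by
  have h := dn_infinite_of_mass K (Set.univ : Set (HeightOneSpectrum (𝓞 k))) 1 ?_ ?_
  · refine h.mono fun v hv ↦ ⟨hv.2.1, hv.2.2.1, hv.2.2.2⟩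
  · rw [div_lt_one (by exact_mod_cast (by omega : 0 < Module.finrank k K))]
    exact_mod_cast hK
  · obtain ⟨C, hC⟩ := dn_primeSum_bound k
    refine ⟨C, ?_⟩
    filter_upwards [hC] with s hs
    rw [dn_primeIdealZetaSum_univ, one_mul]
    have := (abs_le.mp hs).1
    linarith

/-- Primes of degree one splitting completely in one Galois extension but not in a larger one. -/
theorem dn_infinite_split_not_split (E : Type*) [Field E] [NumberField E] [Algebra k E]
    [IsGalois k E] (h : Module.finrank k E < Module.finrank k K) :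
    {v : HeightOneSpectrum (𝓞 k) | v ∈ dn_splitSet k E ∧ (absNorm v.asIdeal).Prime ∧
      v ∉ dn_splitSet k K ∧ v ∉ dn_ramSet k K}.Infinite := by
  have hE : (0 : ℝ) < Module.finrank k E := by
    exact_mod_cast Module.finrank_pos (R := k) (M := E)
  have hKpos : (0 : ℝ) < Module.finrank k K := by
    exact_mod_cast Module.finrank_pos (R := k) (M := K)
  refine dn_infinite_of_mass K (dn_splitSet k E) (1 / Module.finrank k E) ?_ ?_
  · rw [one_div, one_div]
    exact inv_strictAnti₀ hE (by exact_mod_cast h)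
  · obtain ⟨C, hC⟩ := dn_splitSum_bound (k := k) E
    refine ⟨C / Module.finrank k E, ?_⟩
    filter_upwards [hC] with s hs
    have h1 := (abs_le.mp hs).1
    have h2 : Real.log (1 / (s - 1)) - C ≤
        (Module.finrank k E : ℝ) * (dn_splitSet k E).primeIdealZetaSum s := by linarith
    have h3 : 1 / (Module.finrank k E : ℝ) * Real.log (1 / (s - 1)) - C / Module.finrank k E =
        (Real.log (1 / (s - 1)) - C) / Module.finrank k E := by ring
    rw [h3, div_le_iff₀ hE, mul_comm]
    exact h2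

end main

section bridges

variable {k : Type*} [Field k] [NumberField k]
  {K : Type*} [Field K] [NumberField K] [Algebra k K] [IsGalois k K]

/-- Membership in the split set, in terms of the primes above. -/
lemma dn_mem_splitSet_iff (v : HeightOneSpectrum (𝓞 k)) :
    v ∈ dn_splitSet k K ↔ ∀ (P : Ideal (𝓞 K)) [P.IsPrime], P.LiesOver v.asIdeal →
      P.ramificationIdx (𝓞 k) = 1 ∧ P.inertiaDeg (𝓞 k) = 1 := by
  have := v.isPrime
  constructor
  · intro hv P _ hP
    rw [← ramificationIdxIn_eq_ramificationIdx v.asIdeal P Gal(K/k),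
      ← inertiaDegIn_eq_inertiaDeg v.asIdeal P Gal(K/k)]
    exact hv
  · intro h
    obtain ⟨P, hP, hlo⟩ := Ideal.exists_maximal_ideal_liesOver_of_isIntegral (S := 𝓞 K) v.asIdeal
    have := hP.isPrime
    have h1 := h P hlo
    rw [← ramificationIdxIn_eq_ramificationIdx v.asIdeal P Gal(K/k),
      ← inertiaDegIn_eq_inertiaDeg v.asIdeal P Gal(K/k)] at h1
    exact h1

/-- Non-membership in the ramified set, in terms of the primes above. -/
lemma dn_notMem_ramSet_iff (v : HeightOneSpectrum (𝓞 k)) :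
    v ∉ dn_ramSet k K ↔ ∀ (P : Ideal (𝓞 K)) [P.IsPrime], P.LiesOver v.asIdeal →
      P.ramificationIdx (𝓞 k) = 1 := by
  have := v.isPrime
  unfold dn_ramSet
  simp only [Set.mem_ofPred_eq, not_not]
  constructor
  · intro hv P _ hP
    rw [← ramificationIdxIn_eq_ramificationIdx v.asIdeal P Gal(K/k)]
    exact hv
  · intro h
    obtain ⟨P, hP, hlo⟩ := Ideal.exists_maximal_ideal_liesOver_of_isIntegral (S := 𝓞 K) v.asIdeal
    have := hP.isPrime
    have h1 := h P hlo
    rwa [← ramificationIdxIn_eq_ramificationIdx v.asIdeal P Gal(K/k)] at h1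

omit [NumberField k] [NumberField K] [IsGalois k K] in
/-- An unramified prime that does not split completely has residue degree `> 1`; in prime degree
it is inert. -/
lemma dn_inertiaDegIn_of_notMem {v : HeightOneSpectrum (𝓞 k)} (h1 : v ∉ dn_splitSet k K)
    (h2 : v ∉ dn_ramSet k K) : v.asIdeal.inertiaDegIn (𝓞 K) ≠ 1 := by
  intro hf
  unfold dn_ramSet at h2
  simp only [Set.mem_ofPred_eq, not_not] at h2
  exact h1 ⟨h2, hf⟩

lemma dn_inertiaDegIn_eq_of_prime_degree {p : ℕ} (hp : p.Prime) (hdeg : Module.finrank k K = p)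
    {v : HeightOneSpectrum (𝓞 k)} (h1 : v ∉ dn_splitSet k K) (h2 : v ∉ dn_ramSet k K) :
    v.asIdeal.inertiaDegIn (𝓞 K) = p := by
  have h3 := dn_inertiaDegIn_of_notMem h1 h2
  have h4 := dn_card_fiber_mul K v
  rw [hdeg] at h4
  have h5 : v.asIdeal.inertiaDegIn (𝓞 K) ∣ p :=
    ⟨Nat.card (dn_fiber k K v) * v.asIdeal.ramificationIdxIn (𝓞 K), by rw [← h4]; ring⟩
  rcases (Nat.dvd_prime hp).mp h5 with h | h
  · exact absurd h h3
  · exact h

end bridges

end Fermat.Agent.S14
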