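import Mathlib
import Fermat.Agent.S14.Density.EulerSieve

/-!
From partial sums to Dirichlet series: the Dirichlet series `dn_L K X s` over ideals is the
L-series of the coefficient sequence `dn_coeff K X`, and a power-saving bound `O(N ^ r)`, `r < 1`,
for the partial sums `∑_{N(I) ≤ N} X(I)` makes it bounded on `(1, 2]` (Abel summation).
-/

set_option autoImplicit false

namespace Fermat.Agent.S14

open NumberField Ideal Filter Topology MeasureTheory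

/-- Abstract Abel summation bound: if the partial sums of `f` are `O(N ^ r)` with `r < 1`, the
L-series of `f` is bounded on `(1, 2]`. -/
theorem dn_norm_LSeries_le (f : ℕ → ℂ) {r B : ℝ} (hr : 0 ≤ r) (hr1 : r < 1)
    (hsum : ∀ N : ℕ, 1 ≤ N → ‖∑ k ∈ Finset.Icc 1 N, f k‖ ≤ B * (N : ℝ) ^ r)
    {s : ℝ} (hs : 1 < s) (hs2 : s ≤ 2) (hS : LSeriesSummable f s) :
    ‖LSeries f s‖ ≤ 2 * B / (1 - r) := by
  have hB : 0 ≤ B := by simpa using (norm_nonneg _).trans (hsum 1 le_rfl)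
  have hO : (fun n : ℕ ↦ ∑ k ∈ Finset.Icc 1 n, f k) =O[atTop] fun n ↦ (n : ℝ) ^ r := by
    refine Asymptotics.IsBigO.of_bound B ?_
    filter_upwards [eventually_ge_atTop 1] with n hn
    rw [Real.norm_of_nonneg (by positivity)]
    exact hsum n hn
  have hsr : r < (s : ℂ).re := by
    rw [Complex.ofReal_re]; linarith
  rw [LSeries_eq_mul_integral f hr hsr hS hO, norm_mul, Complex.norm_real,
    Real.norm_of_nonneg (by linarith)]
  have hlt : r - s - 1 < -1 := by linarith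
  have h1 : ‖∫ t in Set.Ioi (1 : ℝ), (∑ k ∈ Finset.Icc 1 ⌊t⌋₊, f k) *
      (t : ℂ) ^ (-((s : ℂ) + 1))‖ ≤ ∫ t in Set.Ioi (1 : ℝ), B * t ^ (r - s - 1) := by
    refine norm_integral_le_of_norm_le ?_ ?_
    · exact (integrableOn_Ioi_rpow_of_lt hlt zero_lt_one).const_mul B
    · filter_upwards [ae_restrict_mem measurableSet_Ioi] with t ht
      have ht1 : (1 : ℝ) < t := ht
      have ht0 : (0 : ℝ) < t := by linarith
      have hfl : 1 ≤ ⌊t⌋₊ := Nat.le_floor (by simpa using ht1.le)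
      rw [norm_mul, Complex.norm_cpow_eq_rpow_re_of_pos ht0]
      have h2 : (-((s : ℂ) + 1)).re = -(s + 1) := by simp
      rw [h2]
      have h3 : ((⌊t⌋₊ : ℕ) : ℝ) ^ r ≤ t ^ r :=
        Real.rpow_le_rpow (Nat.cast_nonneg _) (Nat.floor_le ht0.le) hr
      have h4 : t ^ (r - s - 1) = t ^ r * t ^ (-(s + 1)) := by
        rw [← Real.rpow_add ht0]; congr 1; ring
      rw [h4, ← mul_assoc]
      refine mul_le_mul_of_nonneg_right ?_ (Real.rpow_nonneg ht0.le _)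
      exact (hsum _ hfl).trans (mul_le_mul_of_nonneg_left h3 hB)
  rw [integral_const_mul, integral_Ioi_rpow_of_lt hlt zero_lt_one] at h1
  have h5 : B * (-(1 : ℝ) ^ (r - s - 1 + 1) / (r - s - 1 + 1)) = B / (s - r) := by
    rw [Real.one_rpow]
    have : s - r ≠ 0 := by linarith
    have : r - s - 1 + 1 ≠ 0 := by linarith
    field_simp
    ring
  rw [h5] at h1
  have hsr' : 0 < s - r := by linarith
  have h1r : 0 < 1 - r := by linarith
  calc s * ‖∫ t in Set.Ioi (1 : ℝ), (∑ k ∈ Finset.Icc 1 ⌊t⌋₊, f k) *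
      (t : ℂ) ^ (-((s : ℂ) + 1))‖ ≤ s * (B / (s - r)) :=
        mul_le_mul_of_nonneg_left h1 (by linarith)
    _ ≤ 2 * B / (1 - r) := by
        rw [mul_div_assoc', div_le_div_iff₀ hsr' h1r]
        have h6 : 0 ≤ B * (s * (1 + r) - 2 * r) := by
          apply mul_nonneg hB
          nlinarith [hs2, hs]
        nlinarith [hs2, hs]

variable (K : Type*) [Field K] [NumberField K]

/-- The coefficients `a_k = ∑_{N(I) = k} f(I)` of the Dirichlet series `∑_I f(I) N(I)^(-s)`. -/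
noncomputable def dn_coeff (f : Ideal (𝓞 K) → ℂ) (k : ℕ) : ℂ :=
  ∑ I ∈ (Ideal.finite_setOfPred_absNorm_eq (S := 𝓞 K) k).toFinset, f I

lemma dn_tsum_fiber (f : Ideal (𝓞 K) → ℂ) (k : ℕ) :
    ∑' I : ((absNorm : Ideal (𝓞 K) → ℕ) ⁻¹' {k} : Set (Ideal (𝓞 K))), f I = dn_coeff K f k := by
  unfold dn_coeff
  rw [← Finset.tsum_subtype']
  exact tsum_congr_set_coe _ (by ext I; simp)

/-- The Dirichlet series over ideals is the L-series of its coefficient sequence. -/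
theorem dn_LSeriesHasSum (X : Ideal (𝓞 K) →* ℂ) (hX : ∀ I, ‖X I‖ ≤ 1) {s : ℝ} (hs : 1 < s) :
    LSeriesHasSum (dn_coeff K X) s (dn_L K X s) := by
  have h := (dn_summable_term X hX hs).hasSum.tsum_fiberwise (absNorm : Ideal (𝓞 K) → ℕ)
  unfold LSeriesHasSum
  have hk : ∀ k : ℕ, LSeries.term (dn_coeff K X) s k =
      ∑' I : ((absNorm : Ideal (𝓞 K) → ℕ) ⁻¹' {k} : Set (Ideal (𝓞 K))), dn_term K X s I := by
    intro k
    have h1 : ∀ I : ((absNorm : Ideal (𝓞 K) → ℕ) ⁻¹' {k} : Set (Ideal (𝓞 K))),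
        dn_term K X s I = X I * (((k : ℝ) ^ (-s) : ℝ) : ℂ) := by
      intro I
      have : absNorm (I : Ideal (𝓞 K)) = k := I.2
      unfold dn_term
      rw [this]
    rw [tsum_congr h1, tsum_mul_right, dn_tsum_fiber]
    rcases Nat.eq_zero_or_pos k with rfl | hk
    · have : -s ≠ 0 := by linarith
      simp [Real.zero_rpow this]
    · rw [LSeries.term_of_ne_zero hk.ne', Complex.ofReal_cpow (Nat.cast_nonneg _),
        Complex.ofReal_neg, Complex.cpow_neg, div_eq_mul_inv]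
      simp
  have hfun : (fun k : ℕ ↦ ∑' I : ((absNorm : Ideal (𝓞 K) → ℕ) ⁻¹' {k} : Set (Ideal (𝓞 K))),
      dn_term K X s I) = LSeries.term (dn_coeff K X) s := funext fun k ↦ (hk k).symm
  rw [← hfun]
  exact h

theorem dn_LSeries_eq (X : Ideal (𝓞 K) →* ℂ) (hX : ∀ I, ‖X I‖ ≤ 1) {s : ℝ} (hs : 1 < s) :
    LSeries (dn_coeff K X) s = dn_L K X s := (dn_LSeriesHasSum K X hX hs).LSeries_eq

theorem dn_LSeriesSummable (X : Ideal (𝓞 K) →* ℂ) (hX : ∀ I, ‖X I‖ ≤ 1) {s : ℝ} (hs : 1 < s) :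
    LSeriesSummable (dn_coeff K X) s := (dn_LSeriesHasSum K X hX hs).LSeriesSummable

/-- The nonzero ideals of norm at most `N`, as a finset. -/
lemma dn_finite_normLe (N : ℕ) : {I : Ideal (𝓞 K) | I ≠ ⊥ ∧ absNorm I ≤ N}.Finite :=
  (Ideal.finite_setOfPred_absNorm_le (S := 𝓞 K) N).subset fun _ hI ↦ hI.2

noncomputable def dn_normLe (N : ℕ) : Finset (Ideal (𝓞 K)) := (dn_finite_normLe K N).toFinset

lemma dn_mem_normLe {N : ℕ} {I : Ideal (𝓞 K)} : I ∈ dn_normLe K N ↔ I ≠ ⊥ ∧ absNorm I ≤ N := by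
  unfold dn_normLe
  rw [Set.Finite.mem_toFinset]
  rfl

theorem dn_sum_coeff (f : Ideal (𝓞 K) → ℂ) (N : ℕ) :
    ∑ k ∈ Finset.Icc 1 N, dn_coeff K f k = ∑ I ∈ dn_normLe K N, f I := by
  classical
  rw [← Finset.sum_fiberwise_of_maps_to (s := dn_normLe K N) (t := Finset.Icc 1 N)
    (g := (absNorm : Ideal (𝓞 K) → ℕ))]
  · refine Finset.sum_congr rfl fun k hk ↦ ?_
    unfold dn_coeff
    refine Finset.sum_congr ?_ fun _ _ ↦ rfl
    ext I
    rw [Finset.mem_Icc] at hk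
    simp only [Set.Finite.mem_toFinset, Set.mem_ofPred_eq, Finset.mem_filter, dn_mem_normLe]
    constructor
    · intro h
      refine ⟨⟨?_, h ▸ hk.2⟩, h⟩
      rintro rfl
      rw [Ideal.absNorm_bot] at h
      omega
    · exact fun h ↦ h.2
  · intro I hI
    rw [dn_mem_normLe] at hI
    rw [Finset.mem_Icc]
    refine ⟨?_, hI.2⟩
    rw [Nat.one_le_iff_ne_zero, Ne, Ideal.absNorm_eq_zero_iff]
    exact hI.1

theorem dn_sum_coeff_finsum (f : Ideal (𝓞 K) → ℂ) (N : ℕ) :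
    ∑ k ∈ Finset.Icc 1 N, dn_coeff K f k =
      ∑ᶠ I ∈ {I : Ideal (𝓞 K) | I ≠ ⊥ ∧ absNorm I ≤ N}, f I := by
  rw [dn_sum_coeff, ← finsum_mem_coe_finset]
  have : ((dn_normLe K N : Finset (Ideal (𝓞 K))) : Set (Ideal (𝓞 K))) =
      {I : Ideal (𝓞 K) | I ≠ ⊥ ∧ absNorm I ≤ N} := by
    ext I
    rw [Finset.mem_coe, dn_mem_normLe]
    rfl
  rw [this]


/-- **Boundedness of Dirichlet series from power-saving partial sums** (finset form). -/
theorem dn_bounded_of_partial_sums (X : Ideal (𝓞 K) →* ℂ) (hX : ∀ I, ‖X I‖ ≤ 1) {r C : ℝ}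
    (hr : 0 ≤ r) (hr1 : r < 1)
    (hsum : ∀ N : ℕ, 1 ≤ N → ‖∑ I ∈ dn_normLe K N, X I‖ ≤ C * (N : ℝ) ^ r)
    (s : ℝ) (hs : 1 < s) (hs2 : s ≤ 2) : ‖dn_L K X s‖ ≤ 2 * C / (1 - r) := by
  rw [← dn_LSeries_eq K X hX hs]
  refine dn_norm_LSeries_le _ hr hr1 (fun N hN ↦ ?_) hs hs2 (dn_LSeriesSummable K X hX hs)
  rw [dn_sum_coeff]
  exact hsum N hN

/-- **Boundedness of Dirichlet series from power-saving partial sums** (`finsum` form with a real
bound on the norm). -/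
theorem dn_bounded_of_partial_sums_real (X : Ideal (𝓞 K) →* ℂ) (hX : ∀ I, ‖X I‖ ≤ 1) {r C : ℝ}
    (hr : 0 ≤ r) (hr1 : r < 1)
    (hsum : ∀ x : ℝ, 1 ≤ x →
      ‖∑ᶠ I ∈ {I : Ideal (𝓞 K) | I ≠ ⊥ ∧ (absNorm I : ℝ) ≤ x}, X I‖ ≤ C * x ^ r)
    (s : ℝ) (hs : 1 < s) (hs2 : s ≤ 2) : ‖dn_L K X s‖ ≤ 2 * C / (1 - r) := by
  refine dn_bounded_of_partial_sums K X hX hr hr1 (fun N hN ↦ ?_) s hs hs2
  have h := hsum N (by exact_mod_cast hN)
  have hset : {I : Ideal (𝓞 K) | I ≠ ⊥ ∧ (absNorm I : ℝ) ≤ (N : ℝ)} =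
      ((dn_normLe K N : Finset (Ideal (𝓞 K))) : Set (Ideal (𝓞 K))) := by
    ext I
    rw [Finset.mem_coe, dn_mem_normLe]
    simp only [Set.mem_ofPred_eq, Nat.cast_le]
  rwa [hset, finsum_mem_coe_finset] at h

end Fermat.Agent.S14
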