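import Mathlib
import Fermat.Agent.S14.Density.Infinite

/-!
The analytic norm index inequality, abstract form: a finite quotient `Q` of the ideals prime to a
modulus all of whose nontrivial characters have bounded Dirichlet series, and which kills a set of
primes of lower density `δ`, has at most `1/δ` elements.
-/

set_option autoImplicit false

namespace Fermat.Agent.S14

open NumberField Ideal Filter Topology IsDedekindDomain

section characters

variable {Q : Type*} [CommGroup Q] [Finite Q]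

instance dn_finite_char : Finite (Q →* ℂˣ) := by
  have : NeZero (Monoid.exponent Q) := ⟨Monoid.exponent_ne_zero_of_finite⟩
  obtain ⟨e⟩ := CommGroup.monoidHom_mulEquiv_of_hasEnoughRootsOfUnity Q ℂ
  exact Finite.of_equiv _ e.symm.toEquiv

lemma dn_card_char : Nat.card (Q →* ℂˣ) = Nat.card Q := by
  have : NeZero (Monoid.exponent Q) := ⟨Monoid.exponent_ne_zero_of_finite⟩
  obtain ⟨e⟩ := CommGroup.monoidHom_mulEquiv_of_hasEnoughRootsOfUnity Q ℂ
  exact Nat.card_congr e.toEquiv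

open scoped Classical in
/-- Orthogonality of characters. -/
lemma dn_sum_char [Fintype (Q →* ℂˣ)] (g : Q) :
    ∑ χ : Q →* ℂˣ, ((χ g : ℂˣ) : ℂ) = if g = 1 then (Nat.card Q : ℂ) else 0 := by
  have : NeZero (Monoid.exponent Q) := ⟨Monoid.exponent_ne_zero_of_finite⟩
  split_ifs with hg
  · subst hg
    simp only [map_one, Units.val_one, Finset.sum_const, Finset.card_univ, nsmul_eq_mul, mul_one]
    rw [← dn_card_char (Q := Q), Nat.card_eq_fintype_card]
  · obtain ⟨φ, hφ⟩ := CommGroup.exists_apply_ne_one_of_hasEnoughRootsOfUnity Q ℂ hg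
    have h1 : ((φ g : ℂˣ) : ℂ) * ∑ χ : Q →* ℂˣ, ((χ g : ℂˣ) : ℂ) =
        ∑ χ : Q →* ℂˣ, ((χ g : ℂˣ) : ℂ) := by
      rw [Finset.mul_sum]
      refine Fintype.sum_equiv (Equiv.mulLeft φ) _ _ fun χ ↦ ?_
      simp
    have h2 : ((φ g : ℂˣ) : ℂ) ≠ 1 := fun h ↦ hφ (Units.ext h)
    have h3 : (((φ g : ℂˣ) : ℂ) - 1) * ∑ χ : Q →* ℂˣ, ((χ g : ℂˣ) : ℂ) = 0 := by
      rw [sub_mul, h1, one_mul, sub_self]
    rcases mul_eq_zero.mp h3 with h | h
    · exact absurd (sub_eq_zero.mp h) h2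
    · exact h

lemma dn_norm_char (χ : Q →* ℂˣ) (g : Q) : ‖((χ g : ℂˣ) : ℂ)‖ = 1 := by
  have h : (χ g) ^ Nat.card Q = 1 := by
    rw [← map_pow, pow_card_eq_one', map_one]
  have h2 : ((χ g : ℂˣ) : ℂ) ^ Nat.card Q = 1 := by
    rw [← Units.val_pow_eq_pow_val, h, Units.val_one]
  exact Complex.norm_eq_one_of_pow_eq_one h2 Nat.card_pos.ne'

end characters

section main

variable {E : Type*} [Field E] [NumberField E]
  {Q : Type*} [CommGroup Q]

/-- The completely multiplicative function `χ ∘ c`, extended by zero off the ideals prime to `m`. -/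
noncomputable def dn_charHom (m : Ideal (𝓞 E)) (c : Ideal (𝓞 E) → Q) (hc1 : c ⊤ = 1)
    (hcmul : ∀ I J : Ideal (𝓞 E), I ⊔ m = ⊤ → J ⊔ m = ⊤ → c (I * J) = c I * c J)
    (χ : Q →* ℂˣ) : Ideal (𝓞 E) →* ℂ := by
  classical
  exact
  { toFun := fun I ↦ if I ⊔ m = ⊤ then ((χ (c I) : ℂˣ) : ℂ) else 0
    map_one' := by
      rw [Ideal.one_eq_top, if_pos (top_sup_eq m), hc1, map_one, Units.val_one]
    map_mul' := by
      intro I J
      by_cases hI : I ⊔ m = ⊤
      · by_cases hJ : J ⊔ m = ⊤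
        · have hIJ : I * J ⊔ m = ⊤ := by
            rw [← Ideal.isCoprime_iff_sup_eq] at hI hJ ⊢
            exact IsCoprime.mul_left hI hJ
          rw [if_pos hI, if_pos hJ, if_pos hIJ, hcmul I J hI hJ, map_mul, Units.val_mul]
        · have hIJ : ¬ (I * J ⊔ m = ⊤) := by
            rw [← Ideal.isCoprime_iff_sup_eq] at hJ ⊢
            exact fun h ↦ hJ (IsCoprime.of_mul_left_right h)
          rw [if_neg hJ, if_neg hIJ, mul_zero]
      · have hIJ : ¬ (I * J ⊔ m = ⊤) := by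
          rw [← Ideal.isCoprime_iff_sup_eq] at hI ⊢
          exact fun h ↦ hI (IsCoprime.of_mul_left_left h)
        rw [if_neg hI, if_neg hIJ, zero_mul] }

omit [NumberField E] in
lemma dn_charHom_apply (m : Ideal (𝓞 E)) (c : Ideal (𝓞 E) → Q) (hc1 : c ⊤ = 1)
    (hcmul : ∀ I J : Ideal (𝓞 E), I ⊔ m = ⊤ → J ⊔ m = ⊤ → c (I * J) = c I * c J)
    (χ : Q →* ℂˣ) (I : Ideal (𝓞 E)) [Decidable (I ⊔ m = ⊤)] :
    dn_charHom m c hc1 hcmul χ I = if I ⊔ m = ⊤ then ((χ (c I) : ℂˣ) : ℂ) else 0 := by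
  unfold dn_charHom
  simp only [MonoidHom.coe_mk, OneHom.coe_mk]
  congr

variable [Finite Q]

omit [NumberField E] in
lemma dn_norm_charHom_le (m : Ideal (𝓞 E)) (c : Ideal (𝓞 E) → Q) (hc1 : c ⊤ = 1)
    (hcmul : ∀ I J : Ideal (𝓞 E), I ⊔ m = ⊤ → J ⊔ m = ⊤ → c (I * J) = c I * c J)
    (χ : Q →* ℂˣ) (I : Ideal (𝓞 E)) : ‖dn_charHom m c hc1 hcmul χ I‖ ≤ 1 := by
  classical
  rw [dn_charHom_apply]
  split_ifs
  · exact (dn_norm_char χ _).le
  · simp

/-- **Abstract analytic norm index inequality.** -/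
theorem dn_index_mul_le_one (m : Ideal (𝓞 E)) (c : Ideal (𝓞 E) → Q) (hc1 : c ⊤ = 1)
    (hcmul : ∀ I J : Ideal (𝓞 E), I ⊔ m = ⊤ → J ⊔ m = ⊤ → c (I * J) = c I * c J)
    (A : Set (HeightOneSpectrum (𝓞 E)))
    (hA1 : ∀ v ∈ A, v.asIdeal ⊔ m = ⊤ ∧ c v.asIdeal = 1)
    (δ : ℝ) (hA2 : ∃ C : ℝ, ∀ᶠ s in 𝓝[>] (1 : ℝ),
      δ * Real.log (1 / (s - 1)) - C ≤ A.primeIdealZetaSum s)
    (hbdd : ∀ χ : Q →* ℂˣ, χ ≠ 1 → ∃ B : ℝ, ∀ s : ℝ, 1 < s → s ≤ 2 →
      ‖dn_L E (dn_charHom m c hc1 hcmul χ) s‖ ≤ B) :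
    (Nat.card Q : ℝ) * δ ≤ 1 := by
  classical
  have := Fintype.ofFinite (Q →* ℂˣ)
  set X := dn_charHom m c hc1 hcmul with hX
  have hXle : ∀ χ I, ‖X χ I‖ ≤ 1 := dn_norm_charHom_le m c hc1 hcmul
  obtain ⟨C1, hC1⟩ := hA2
  obtain ⟨C2, hC2⟩ := dn_log_zeta_bound E
  choose! B hB using hbdd
  set h : ℝ := (Nat.card Q : ℝ) with hh
  set nχ : ℝ := (Fintype.card (Q →* ℂˣ) : ℝ) with hnχ
  -- the upper bound constant
  set U : ℝ := C2 + ∑ χ : Q →* ℂˣ, |Real.log (B χ)| with hU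
  -- main inequality for s close to 1
  have hev : ∀ᶠ s in 𝓝[>] (1 : ℝ), (h * δ - 1) * Real.log (1 / (s - 1)) ≤
      h * C1 + nχ * dn_C E + U := by
    filter_upwards [hC1, hC2, Ioc_mem_nhdsGT (show (1 : ℝ) < 2 by norm_num)] with s h1 h2 hs
    have hs1 : 1 < s := hs.1
    have hs2 : s ≤ 2 := hs.2
    set Lg := Real.log (1 / (s - 1)) with hLg
    -- lower bound for the sum of logs
    have hsumv : ∀ χ : Q →* ℂˣ, Summable fun v : HeightOneSpectrum (𝓞 E) ↦
        (dn_term E (X χ) s v.asIdeal).re := by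
      intro χ
      refine Summable.of_norm_bounded (dn_summable_prime_rpow hs1) fun v ↦ ?_
      exact (Complex.abs_re_le_norm _).trans (dn_norm_term_le (X χ) (hXle χ) s v.asIdeal)
    have hlow : ∀ χ : Q →* ℂˣ, ∑' v : HeightOneSpectrum (𝓞 E), (dn_term E (X χ) s v.asIdeal).re -
        dn_C E ≤ Real.log ‖dn_L E (X χ) s‖ := by
      intro χ
      have := (abs_le.mp (dn_abs_log_norm_L_sub_le (X χ) (hXle χ) hs1)).1
      linarith
    have hortho : ∑ χ : Q →* ℂˣ, ∑' v : HeightOneSpectrum (𝓞 E),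
        (dn_term E (X χ) s v.asIdeal).re =
        ∑' v : HeightOneSpectrum (𝓞 E), ∑ χ : Q →* ℂˣ, (dn_term E (X χ) s v.asIdeal).re :=
      (Summable.tsum_finsetSum fun χ _ ↦ hsumv χ).symm
    -- the inner sum over characters
    have hinner : ∀ v : HeightOneSpectrum (𝓞 E),
        ∑ χ : Q →* ℂˣ, (dn_term E (X χ) s v.asIdeal).re =
        (if v.asIdeal ⊔ m = ⊤ ∧ c v.asIdeal = 1 then h else 0) *
          (absNorm v.asIdeal : ℝ) ^ (-s) := by
      intro v
      have h3 : ∀ χ : Q →* ℂˣ, (dn_term E (X χ) s v.asIdeal).re =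
          ((X χ v.asIdeal) * (((absNorm v.asIdeal : ℝ) ^ (-s) : ℝ) : ℂ)).re := fun χ ↦ rfl
      simp_rw [h3, Complex.re_mul_ofReal, ← Finset.sum_mul, ← Complex.re_sum]
      congr 1
      by_cases hv : v.asIdeal ⊔ m = ⊤
      · have h4 : ∀ χ : Q →* ℂˣ, X χ v.asIdeal = ((χ (c v.asIdeal) : ℂˣ) : ℂ) := by
          intro χ
          rw [hX, dn_charHom_apply, if_pos hv]
        simp_rw [h4, dn_sum_char]
        by_cases hc : c v.asIdeal = 1
        · rw [if_pos hc, if_pos ⟨hv, hc⟩]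
          simp [hh]
        · rw [if_neg hc, if_neg (fun h ↦ hc h.2)]
          simp
      · have h4 : ∀ χ : Q →* ℂˣ, X χ v.asIdeal = 0 := by
          intro χ
          rw [hX, dn_charHom_apply, if_neg hv]
        simp_rw [h4]
        rw [if_neg (fun h ↦ hv h.1)]
        simp
    have hmass : h * A.primeIdealZetaSum s ≤
        ∑' v : HeightOneSpectrum (𝓞 E), ∑ χ : Q →* ℂˣ, (dn_term E (X χ) s v.asIdeal).re := by
      simp_rw [hinner]
      rw [dn_primeIdealZetaSum_eq_tsum_indicator, ← tsum_mul_left]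
      have hsum := dn_summable_prime_rpow (K := E) hs1
      refine (hsum.indicator A |>.mul_left h).tsum_le_tsum (fun v ↦ ?_) ?_
      · have hpos : (0 : ℝ) ≤ (absNorm v.asIdeal : ℝ) ^ (-s) := by positivity
        have hh0 : 0 ≤ h := by positivity
        by_cases hv : v ∈ A
        · rw [Set.indicator_of_mem hv, if_pos (hA1 v hv)]
        · rw [Set.indicator_of_notMem hv, mul_zero]
          split_ifs
          · positivity
          · simp
      · refine Summable.of_nonneg_of_le (fun v ↦ ?_) (fun v ↦ ?_) (hsum.mul_left h)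
        · have hpos : (0 : ℝ) ≤ (absNorm v.asIdeal : ℝ) ^ (-s) := by positivity
          have hh0 : 0 ≤ h := by positivity
          split_ifs
          · positivity
          · simp
        · have hpos : (0 : ℝ) ≤ (absNorm v.asIdeal : ℝ) ^ (-s) := by positivity
          have hh0 : 0 ≤ h := by positivity
          split_ifs
          · exact le_refl _
          · rw [zero_mul]; positivity
    -- upper bound for each log
    have hup1 : Real.log ‖dn_L E (X 1) s‖ ≤ Lg + C2 := by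
      have hne := dn_L_ne_zero (X 1) (hXle 1) hs1
      have hle : ‖dn_L E (X 1) s‖ ≤ dn_zeta E s := by
        unfold dn_L dn_zeta
        refine (norm_tsum_le_tsum_norm (dn_summable_term (X 1) (hXle 1) hs1).norm).trans ?_
        exact (dn_summable_term (X 1) (hXle 1) hs1).norm.tsum_le_tsum
          (dn_norm_term_le (X 1) (hXle 1) s) (dn_summable_norm_rpow E hs1)
      have := Real.log_le_log (norm_pos_iff.mpr hne) hle
      have h5 := (abs_le.mp h2).2
      linarith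
    have hupχ : ∀ χ : Q →* ℂˣ, χ ≠ 1 → Real.log ‖dn_L E (X χ) s‖ ≤ |Real.log (B χ)| := by
      intro χ hχ
      have hne := dn_L_ne_zero (X χ) (hXle χ) hs1
      have := Real.log_le_log (norm_pos_iff.mpr hne) (hB χ hχ s hs1 hs2)
      exact this.trans (le_abs_self _)
    have hupsum : ∑ χ : Q →* ℂˣ, Real.log ‖dn_L E (X χ) s‖ ≤ Lg + U := by
      rw [← Finset.add_sum_erase Finset.univ _ (Finset.mem_univ (1 : Q →* ℂˣ))]
      have h6 : ∑ χ ∈ Finset.univ.erase (1 : Q →* ℂˣ), Real.log ‖dn_L E (X χ) s‖ ≤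
          ∑ χ ∈ Finset.univ.erase (1 : Q →* ℂˣ), |Real.log (B χ)| :=
        Finset.sum_le_sum fun χ hχ ↦ hupχ χ (Finset.ne_of_mem_erase hχ)
      have h7 : ∑ χ ∈ Finset.univ.erase (1 : Q →* ℂˣ), |Real.log (B χ)| ≤
          ∑ χ : Q →* ℂˣ, |Real.log (B χ)| :=
        Finset.sum_le_sum_of_subset_of_nonneg (Finset.erase_subset _ _)
          fun _ _ _ ↦ abs_nonneg _
      rw [hU]
      linarith
    have hlowsum : ∑ χ : Q →* ℂˣ, (∑' v : HeightOneSpectrum (𝓞 E),
        (dn_term E (X χ) s v.asIdeal).re - dn_C E) ≤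
        ∑ χ : Q →* ℂˣ, Real.log ‖dn_L E (X χ) s‖ := Finset.sum_le_sum fun χ _ ↦ hlow χ
    rw [Finset.sum_sub_distrib, Finset.sum_const, Finset.card_univ, nsmul_eq_mul, hortho]
      at hlowsum
    have hh0 : 0 ≤ h := by positivity
    have h8 : h * (δ * Lg - C1) ≤ h * A.primeIdealZetaSum s :=
      mul_le_mul_of_nonneg_left h1 hh0
    nlinarith
  -- conclusion
  by_contra hcon
  rw [not_le] at hcon
  have hδ : 0 < h * δ - 1 := sub_pos.mpr hcon
  set R : ℝ := h * C1 + nχ * dn_C E + U with hR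
  have hev2 : ∀ᶠ s in 𝓝[>] (1 : ℝ), R / (h * δ - 1) + 1 ≤ Real.log (1 / (s - 1)) :=
    dn_tendsto_log_atTop.eventually (eventually_ge_atTop _)
  obtain ⟨s, h1, h2⟩ := (hev.and hev2).exists
  have h3 : (h * δ - 1) * (R / (h * δ - 1) + 1) ≤ (h * δ - 1) * Real.log (1 / (s - 1)) :=
    mul_le_mul_of_nonneg_left h2 hδ.le
  have h4 : (h * δ - 1) * (R / (h * δ - 1) + 1) = R + (h * δ - 1) := by
    rw [mul_add, mul_one, mul_div_assoc', mul_div_cancel_left₀ _ hδ.ne']
  linarith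

end main

section galois

variable {E : Type*} [Field E] [NumberField E]
  (L : Type*) [Field L] [NumberField L] [Algebra E L] [IsGalois E L]
  {Q : Type*} [CommGroup Q] [Finite Q]

/-- **Analytic norm index inequality for a Galois extension `L/E`**: a finite quotient `Q` of the
ideals prime to `m` that kills the primes splitting completely in `L`, and all of whose nontrivial
characters have bounded Dirichlet series, has at most `[L : E]` elements. -/
theorem dn_second_inequality (m : Ideal (𝓞 E)) (hm : m ≠ ⊥) (c : Ideal (𝓞 E) → Q)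
    (hc1 : c ⊤ = 1)
    (hcmul : ∀ I J : Ideal (𝓞 E), I ⊔ m = ⊤ → J ⊔ m = ⊤ → c (I * J) = c I * c J)
    (hsplit : ∀ v ∈ dn_splitSet E L, v.asIdeal ⊔ m = ⊤ → c v.asIdeal = 1)
    (hbdd : ∀ χ : Q →* ℂˣ, χ ≠ 1 → ∃ B : ℝ, ∀ s : ℝ, 1 < s → s ≤ 2 →
      ‖dn_L E (dn_charHom m c hc1 hcmul χ) s‖ ≤ B) :
    Nat.card Q ≤ Module.finrank E L := by
  set A : Set (HeightOneSpectrum (𝓞 E)) := {v | v ∈ dn_splitSet E L ∧ v.asIdeal ⊔ m = ⊤} with hA
  set T : Set (HeightOneSpectrum (𝓞 E)) := {v | v.asIdeal ∣ m} with hT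
  have hTfin : T.Finite := Ideal.finite_factors hm
  have hn : (0 : ℝ) < Module.finrank E L := by
    exact_mod_cast Module.finrank_pos (R := E) (M := L)
  have hcover : dn_splitSet E L ⊆ A ∪ T := by
    intro v hv
    by_cases h : v.asIdeal ⊔ m = ⊤
    · exact Or.inl ⟨hv, h⟩
    · refine Or.inr ?_
      have h1 : v.asIdeal ⊔ m = v.asIdeal := (v.isMaximal.eq_of_le h le_sup_left).symm
      exact Ideal.dvd_iff_le.mpr (h1 ▸ le_sup_right)
  have key := dn_index_mul_le_one m c hc1 hcmul A (fun v hv ↦ ⟨hv.2, hsplit v hv.1 hv.2⟩)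
    (1 / Module.finrank E L) ?_ hbdd
  · rw [mul_one_div, div_le_one hn] at key
    exact_mod_cast key
  · obtain ⟨C, hC⟩ := dn_splitSum_bound (k := E) L
    refine ⟨C / Module.finrank E L + T.ncard, ?_⟩
    filter_upwards [hC, self_mem_nhdsWithin] with s hs1 hs
    have hs' : (1 : ℝ) < s := hs
    have h1 := dn_primeIdealZetaSum_le_add hcover hs'
    have h2 := NumberField.Set.primeIdealZetaSum_le_card_of_finite hTfin (by linarith : (0:ℝ) ≤ s)
    have h3 := (abs_le.mp hs1).1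
    have h4 : (Real.log (1 / (s - 1)) - C) / Module.finrank E L ≤
        (dn_splitSet E L).primeIdealZetaSum s := by
      rw [div_le_iff₀ hn, mul_comm]
      linarith
    have h5 : 1 / (Module.finrank E L : ℝ) * Real.log (1 / (s - 1)) - C / Module.finrank E L =
        (Real.log (1 / (s - 1)) - C) / Module.finrank E L := by ring
    linarith

end galois

end Fermat.Agent.S14
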