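import Mathlib
import Fermat.Agent.S14.Density.SecondIneq
import Fermat.Agent.S14.Density.DirichletBound

/-!
The second (analytic) inequality with modulus, in the shape consumed by the crossing argument:
composition of the abstract norm index inequality `dn_second_inequality` with the boundedness of
the Dirichlet series of nontrivial ray class characters (`dn_BoundedHyp`, to be supplied by the
ideal counting block).
-/

set_option autoImplicit false

namespace Fermat.Agent.S14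

open NumberField Ideal Filter Topology IsDedekindDomain

/-- The boundedness statement for Dirichlet series of nontrivial "ray class characters modulo `m`"
(output of the counting block): a completely multiplicative function `X` on ideals, bounded by `1`,
supported exactly on the ideals prime to `m`, trivial on principal ideals generated by elements
`≡ 1 mod m`, and not identically `1` on its support, has a Dirichlet series bounded on `(1, 2]`. -/
def dn_BoundedHyp (E : Type*) [Field E] [NumberField E] (m : Ideal (𝓞 E)) : Prop :=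
  ∀ X : Ideal (𝓞 E) →* ℂ, (∀ I, ‖X I‖ ≤ 1) → (∀ I, X I ≠ 0 ↔ I ⊔ m = ⊤) →
    (∀ α : 𝓞 E, α - 1 ∈ m → α ≠ 0 → X (Ideal.span {α}) = 1) → (∃ a, X a ≠ 0 ∧ X a ≠ 1) →
    ∃ B : ℝ, ∀ s : ℝ, 1 < s → s ≤ 2 → ‖dn_L E X s‖ ≤ B

/-- The power-saving character sum statement (output of the ray class counting block, "Q3"): for
`X` as in `dn_BoundedHyp`, the partial sums `∑_{I ≠ ⊥, N(I) ≤ N} X(I)` are `O(N ^ r)`, `r < 1`. -/
def dn_PartialSumHyp (E : Type*) [Field E] [NumberField E] (m : Ideal (𝓞 E)) : Prop :=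
  ∀ X : Ideal (𝓞 E) →* ℂ, (∀ I, ‖X I‖ ≤ 1) → (∀ I, X I ≠ 0 ↔ I ⊔ m = ⊤) →
    (∀ α : 𝓞 E, α - 1 ∈ m → α ≠ 0 → X (Ideal.span {α}) = 1) → (∃ a, X a ≠ 0 ∧ X a ≠ 1) →
    ∃ C r : ℝ, 0 ≤ r ∧ r < 1 ∧
      ∀ N : ℕ, 1 ≤ N → ‖∑ I ∈ dn_normLe E N, X I‖ ≤ C * (N : ℝ) ^ r

/-- Q3 ⟹ Q4 (Abel summation). -/
theorem dn_boundedHyp_of_partialSumHyp {E : Type*} [Field E] [NumberField E] {m : Ideal (𝓞 E)}
    (h : dn_PartialSumHyp E m) : dn_BoundedHyp E m := by
  intro X hX1 hX2 hX3 hX4
  obtain ⟨C, r, hr, hr1, hsum⟩ := h X hX1 hX2 hX3 hX4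
  exact ⟨2 * C / (1 - r), dn_bounded_of_partial_sums E X hX1 hr hr1 hsum⟩

lemma dn_span_sup_eq_top_of_sub_one_mem {R : Type*} [CommRing R] {m : Ideal R} {α : R}
    (h : α - 1 ∈ m) : Ideal.span {α} ⊔ m = ⊤ := by
  rw [Ideal.eq_top_iff_one]
  have h1 : α ∈ Ideal.span {α} ⊔ m := Ideal.mem_sup_left (Ideal.mem_span_singleton_self α)
  have h2 : α - 1 ∈ Ideal.span {α} ⊔ m := Ideal.mem_sup_right h
  have h3 := Ideal.sub_mem _ h1 h2
  simpa using h3

section

variable {E : Type*} [Field E] [NumberField E]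
  (L : Type*) [Field L] [NumberField L] [Algebra E L] [IsGalois E L]
  {Q : Type*} [CommGroup Q] [Finite Q]

omit [Finite Q] in
/-- From (c5) (primes of `L` of inertia degree one have trivial class) to the
`hsplit` hypothesis of `dn_second_inequality`. -/
lemma dn_hsplit_of_inertiaDeg (m : Ideal (𝓞 E)) (c : Ideal (𝓞 E) → Q)
    (hc5 : ∀ P : Ideal (𝓞 L), P.IsPrime → P ≠ ⊥ → (P.under (𝓞 E)) ⊔ m = ⊤ →
      P.inertiaDeg (𝓞 E) = 1 → c (P.under (𝓞 E)) = 1) :
    ∀ v ∈ dn_splitSet E L, v.asIdeal ⊔ m = ⊤ → c v.asIdeal = 1 := by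
  intro v hv hvm
  have := v.isPrime
  obtain ⟨P, hP, hlo⟩ := Ideal.exists_maximal_ideal_liesOver_of_isIntegral (S := 𝓞 L) v.asIdeal
  have hPp := hP.isPrime
  have hunder : P.under (𝓞 E) = v.asIdeal := (Ideal.over_def P v.asIdeal).symm
  have hP0 : P ≠ ⊥ := by
    rintro rfl
    apply v.ne_bot
    rw [← hunder]
    exact Ideal.under_bot _ _
  have h1 := ((dn_mem_splitSet_iff (K := L) v).mp hv P hlo).2
  have h2 := hc5 P hPp hP0 (by rw [hunder]; exact hvm) h1
  rwa [hunder] at h2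

/-- **Second inequality with modulus** (final consumer shape): let `L/E` be a Galois extension of
number fields, `m ≠ ⊥` an ideal of `𝓞 E`, and `c` a map from ideals of `𝓞 E` to a finite abelian
group `Q` which is multiplicative and surjective on ideals prime to `m`, trivial on the ray modulo
`m` and on the (norms of) primes of `L` of inertia degree one. Then `|Q| ≤ [L : E]`, provided the
Dirichlet series of the nontrivial ray class characters are bounded near `1` (`dn_BoundedHyp`). -/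
theorem dn_second_inequality_modulus (m : Ideal (𝓞 E)) (hm : m ≠ ⊥) (hQ4 : dn_BoundedHyp E m)
    (c : Ideal (𝓞 E) → Q) (hc1 : c ⊤ = 1)
    (hc2 : ∀ a b : Ideal (𝓞 E), a ⊔ m = ⊤ → b ⊔ m = ⊤ → c (a * b) = c a * c b)
    (hc3 : ∀ x : Q, ∃ a : Ideal (𝓞 E), a ⊔ m = ⊤ ∧ c a = x)
    (hc4 : ∀ γ : 𝓞 E, γ - 1 ∈ m → γ ≠ 0 → c (Ideal.span {γ}) = 1)
    (hc5 : ∀ P : Ideal (𝓞 L), P.IsPrime → P ≠ ⊥ → (P.under (𝓞 E)) ⊔ m = ⊤ →
      P.inertiaDeg (𝓞 E) = 1 → c (P.under (𝓞 E)) = 1) :
    Nat.card Q ≤ Module.finrank E L := by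
  refine dn_second_inequality L m hm c hc1 hc2 (dn_hsplit_of_inertiaDeg L m c hc5) ?_
  intro χ hχ
  refine hQ4 (dn_charHom m c hc1 hc2 χ) (dn_norm_charHom_le m c hc1 hc2 χ) ?_ ?_ ?_
  · intro I
    rw [dn_charHom_apply]
    split_ifs with h
    · simp [h]
    · simp [h]
  · intro α hα hα0
    rw [dn_charHom_apply, if_pos (dn_span_sup_eq_top_of_sub_one_mem hα), hc4 α hα hα0, map_one,
      Units.val_one]
  · have hex : ∃ x : Q, χ x ≠ 1 := by
      by_contra hcon
      push Not at hcon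
      exact hχ (MonoidHom.ext fun x ↦ by simpa using hcon x)
    obtain ⟨x, hx⟩ := hex
    obtain ⟨a, ha, rfl⟩ := hc3 x
    refine ⟨a, ?_, ?_⟩
    · rw [dn_charHom_apply, if_pos ha]
      exact Units.ne_zero _
    · rw [dn_charHom_apply, if_pos ha]
      intro h
      exact hx (Units.ext h)

end

end Fermat.Agent.S14
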